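/-
Shared definitions for the proof of S53 (existence of the universal deformation ring).
Everything lives in namespace `Fermat.Agent.Lib.Deform`.
-/
import Mathlib
import Fermat.Prelude.Def_GaloisRep_DeformationCondition
import Fermat.Prelude.Def_GaloisRep_DeformationRingData

set_option autoImplicit false

noncomputable section

namespace Fermat.Agent.Lib.Deform

open IsLocalRing

/-- The absolute Galois group of `ℚ`, as used by the Prelude. -/
abbrev GQ : Type := AlgebraicClosure ℚ ≃ₐ[ℚ] AlgebraicClosure ℚ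

/-- The coordinate set: a matrix valued function on `GQ` is the same as a function on `Coord`. -/
abbrev Coord : Type := GQ × Fin 2 × Fin 2

/-- A test algebra: a local `𝒪`-algebra whose structure map is local and induces a surjection
onto the residue field.  (The Prelude's `GaloisRep.IsArtinianTestAlgebra` is this plus artinian.) -/
structure IsTestAlgebra (𝒪 : Type) [CommRing 𝒪] [IsLocalRing 𝒪]
    (A : Type) [CommRing A] [IsLocalRing A] [Algebra 𝒪 A] : Prop where
  isLocalHom : IsLocalHom (algebraMap 𝒪 A)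
  residue_surjective : Function.Surjective (IsLocalRing.residue A ∘ algebraMap 𝒪 A)

theorem IsTestAlgebra.of_artinian {𝒪 : Type} [CommRing 𝒪] [IsLocalRing 𝒪]
    {A : Type} [CommRing A] [IsLocalRing A] [Algebra 𝒪 A]
    (h : GaloisRep.IsArtinianTestAlgebra 𝒪 A) : IsTestAlgebra 𝒪 A :=
  ⟨h.isLocalHom, h.residue_surjective⟩

theorem IsTestAlgebra.artinian {𝒪 : Type} [CommRing 𝒪] [IsLocalRing 𝒪]
    {A : Type} [CommRing A] [IsLocalRing A] [Algebra 𝒪 A]
    (h : IsTestAlgebra 𝒪 A) [IsArtinianRing A] : GaloisRep.IsArtinianTestAlgebra 𝒪 A :=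
  ⟨h.isLocalHom, h.residue_surjective, inferInstance⟩

/-- The `𝒪`-algebra structure on the dual numbers `k[ε]` that `GaloisRep.TangentFinite` uses
(syntactically the same term). -/
@[reducible] def dualNumberAlgebra (𝒪 : Type) [CommRing 𝒪] [IsLocalRing 𝒪] :
    Algebra 𝒪 (DualNumber (ResidueField 𝒪)) :=
  ((algebraMap (ResidueField 𝒪) (DualNumber (ResidueField 𝒪))).comp
    (algebraMap 𝒪 (ResidueField 𝒪))).toAlgebra

/-- The `k`-algebra structure on the residue field of `k[ε]` that `GaloisRep.TangentFinite` uses. -/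
@[reducible] def dualNumberResidueAlgebra (𝒪 : Type) [CommRing 𝒪] [IsLocalRing 𝒪] :
    Algebra (ResidueField 𝒪) (ResidueField (DualNumber (ResidueField 𝒪))) :=
  ((IsLocalRing.residue (DualNumber (ResidueField 𝒪))).comp
    (algebraMap (ResidueField 𝒪) (DualNumber (ResidueField 𝒪)))).toAlgebra

section Matrix

variable {A : Type} [CommRing A] [IsLocalRing A]

/-- Adic continuity of a matrix valued function on `GQ`: for every `n` it is congruent to the
identity matrix modulo `𝔪ⁿ` on the subgroup fixing some number field. -/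
def IsAdicContinuousMat (M : GQ → Matrix (Fin 2) (Fin 2) A) : Prop :=
  ∀ n : ℕ, ∃ L : IntermediateField ℚ (AlgebraicClosure ℚ), FiniteDimensional ℚ L ∧
    ∀ σ : GQ, (∀ x ∈ L, σ x = x) →
      ∀ i j, M σ i j - (1 : Matrix (Fin 2) (Fin 2) A) i j ∈ maximalIdeal A ^ n

omit [IsLocalRing A] in
theorem mulVec_mem_smul_top {I : Ideal A} {N : Matrix (Fin 2) (Fin 2) A}
    (hN : ∀ i j, N i j ∈ I) (v : Fin 2 → A) :
    N.mulVec v ∈ I • (⊤ : Submodule A (Fin 2 → A)) := by
  rw [pi_eq_sum_univ (N.mulVec v)]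
  refine Submodule.sum_mem _ fun i _ => Submodule.smul_mem_smul ?_ Submodule.mem_top
  show ∑ j, N i j * v j ∈ I
  exact Ideal.sum_mem _ fun j _ => I.mul_mem_right _ (hN i j)

/-- The representation on `Fin 2 → A` attached to a continuous matrix valued homomorphism. -/
def ofMatrix (M : GQ →* Matrix (Fin 2) (Fin 2) A) (hM : IsAdicContinuousMat (A := A) M) :
    GaloisRepAdic A where
  V := Fin 2 → A
  finrank_eq := by simp
  ρ := (Matrix.toLinAlgEquiv' (R := A) (n := Fin 2) : _ →* _).comp M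
  isAdicContinuous := by
    intro n
    obtain ⟨L, hL, h⟩ := hM n
    refine ⟨L, hL, fun σ hσ v => ?_⟩
    have hv : (Matrix.toLinAlgEquiv' (R := A) (n := Fin 2) (M σ)) v - v =
        (M σ - 1).mulVec v := by
      rw [Matrix.sub_mulVec, Matrix.one_mulVec]; rfl
    show (Matrix.toLinAlgEquiv' (R := A) (n := Fin 2) (M σ)) v - v ∈ _
    rw [hv]
    exact mulVec_mem_smul_top (fun i j => h σ hσ i j) v

theorem ofMatrix_ρ_apply (M : GQ →* Matrix (Fin 2) (Fin 2) A)
    (hM : IsAdicContinuousMat (A := A) M) (σ : GQ) :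
    (ofMatrix M hM).ρ σ = Matrix.toLin' (M σ) := rfl

theorem ofMatrix_ρ_apply_apply (M : GQ →* Matrix (Fin 2) (Fin 2) A)
    (hM : IsAdicContinuousMat (A := A) M) (σ : GQ) (v : Fin 2 → A) :
    (ofMatrix M hM).ρ σ v = (M σ).mulVec v := rfl

/-- Uncurrying: a matrix valued function as a function on coordinates. -/
def uncurryMat {B : Type} (M : GQ → Matrix (Fin 2) (Fin 2) B) : Coord → B :=
  fun x => M x.1 x.2.1 x.2.2

end Matrix

/-- The axioms on a subfunctor `F` of `A ↦ (X → A)` on local `𝒪`-algebras which make it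
pro-representable (blueprint F0–F5). -/
structure FunctorAxioms (𝒪 : Type) [CommRing 𝒪] [IsLocalRing 𝒪] (X : Type)
    (F : ∀ (A : Type) [CommRing A] [IsLocalRing A] [Algebra 𝒪 A], Set (X → A)) : Prop where
  /-- F0: functoriality along local `𝒪`-algebra maps between artinian test algebras. -/
  map : ∀ ⦃A B : Type⦄ [CommRing A] [IsLocalRing A] [Algebra 𝒪 A]
    [CommRing B] [IsLocalRing B] [Algebra 𝒪 B],
    GaloisRep.IsArtinianTestAlgebra 𝒪 A → GaloisRep.IsArtinianTestAlgebra 𝒪 B →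
    ∀ (φ : A →ₐ[𝒪] B), IsLocalHom (φ : A →+* B) → ∀ f ∈ F A, (φ ∘ f) ∈ F B
  /-- F1: over the residue field there is exactly one element. -/
  residue : ∃ f₀ : X → ResidueField 𝒪, F (ResidueField 𝒪) = {f₀}
  /-- F2: fibre products of artinian test algebras. -/
  fibreProduct : ∀ ⦃A B C P : Type⦄ [CommRing A] [IsLocalRing A] [Algebra 𝒪 A]
    [CommRing B] [IsLocalRing B] [Algebra 𝒪 B] [CommRing C] [IsLocalRing C] [Algebra 𝒪 C]
    [CommRing P] [IsLocalRing P] [Algebra 𝒪 P],
    GaloisRep.IsArtinianTestAlgebra 𝒪 A → GaloisRep.IsArtinianTestAlgebra 𝒪 B →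
    GaloisRep.IsArtinianTestAlgebra 𝒪 C → GaloisRep.IsArtinianTestAlgebra 𝒪 P →
    ∀ (f : A →ₐ[𝒪] C) (g : B →ₐ[𝒪] C) (pA : P →ₐ[𝒪] A) (pB : P →ₐ[𝒪] B),
      IsLocalHom (pA : P →+* A) → IsLocalHom (pB : P →+* B) →
      f.comp pA = g.comp pB →
      Function.Injective (fun x => (pA x, pB x)) →
      (∀ a b, f a = g b → ∃ x, pA x = a ∧ pB x = b) →
      ∀ h : X → P, (pA ∘ h) ∈ F A → (pB ∘ h) ∈ F B → h ∈ F P
  /-- F3: descent along injective maps of artinian test algebras. -/
  of_injective : ∀ ⦃A B : Type⦄ [CommRing A] [IsLocalRing A] [Algebra 𝒪 A]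
    [CommRing B] [IsLocalRing B] [Algebra 𝒪 B],
    GaloisRep.IsArtinianTestAlgebra 𝒪 A → GaloisRep.IsArtinianTestAlgebra 𝒪 B →
    ∀ (φ : A →ₐ[𝒪] B), IsLocalHom (φ : A →+* B) → Function.Injective φ →
      ∀ f : X → A, (φ ∘ f) ∈ F B → f ∈ F A
  /-- F4: continuity; membership over a complete noetherian test algebra is tested on artinian
  quotients. -/
  iff_forall_surjective : ∀ ⦃A : Type⦄ [CommRing A] [IsLocalRing A] [IsNoetherianRing A]
    [IsAdicComplete (maximalIdeal A) A] [Algebra 𝒪 A], IsTestAlgebra 𝒪 A →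
    ∀ f : X → A, f ∈ F A ↔
      ∀ ⦃B : Type⦄ [CommRing B] [IsLocalRing B] [Algebra 𝒪 B],
        GaloisRep.IsArtinianTestAlgebra 𝒪 B →
        ∀ (q : A →ₐ[𝒪] B), IsLocalHom (q : A →+* B) → Function.Surjective q → (q ∘ f) ∈ F B
  /-- F5: finiteness over the dual numbers. -/
  finite_dualNumber :
    letI := dualNumberAlgebra 𝒪
    (F (DualNumber (ResidueField 𝒪))).Finite

/-- What chunk B proves: a pro-representing object for `F`. -/
def IsProRepresentable (𝒪 : Type) [CommRing 𝒪] [IsLocalRing 𝒪] (X : Type)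
    (F : ∀ (A : Type) [CommRing A] [IsLocalRing A] [Algebra 𝒪 A], Set (X → A)) : Prop :=
  ∃ (R : Type) (_ : CommRing R) (_ : IsLocalRing R) (_ : IsNoetherianRing R)
    (_ : IsAdicComplete (maximalIdeal R) R) (_ : Algebra 𝒪 R),
    IsTestAlgebra 𝒪 R ∧ ∃ fR ∈ F R,
      ∀ (A : Type) [CommRing A] [IsLocalRing A] [IsNoetherianRing A]
        [IsAdicComplete (maximalIdeal A) A] [Algebra 𝒪 A], IsTestAlgebra 𝒪 A →
        ∀ f ∈ F A, ∃! φ : R →ₐ[𝒪] A, (φ ∘ fR) = f

end Fermat.Agent.Lib.Deform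

end
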