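/-
Toolkit for test algebras (local `𝒪`-algebras with residue field that of `𝒪`), used in the
proof of S53.
-/
import Fermat.Agent.Lib.Deform.Defs

set_option autoImplicit false
set_option linter.style.haveILetI false

namespace Fermat.Agent.Lib.Deform

open IsLocalRing

section Basic

variable {𝒪 : Type} [CommRing 𝒪] [IsLocalRing 𝒪]

/-- In a test algebra every element is congruent to a scalar modulo the maximal ideal. -/
theorem IsTestAlgebra.exists_sub_mem {A : Type} [CommRing A] [IsLocalRing A] [Algebra 𝒪 A]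
    (hA : IsTestAlgebra 𝒪 A) (a : A) : ∃ r : 𝒪, a - algebraMap 𝒪 A r ∈ maximalIdeal A := by
  obtain ⟨r, hr⟩ := hA.residue_surjective (residue A a)
  refine ⟨r, ?_⟩
  rw [← residue_eq_zero_iff, map_sub, sub_eq_zero]
  exact hr.symm

/-- Scalars from the maximal ideal of `𝒪` land in the maximal ideal. -/
theorem IsTestAlgebra.algebraMap_mem {A : Type} [CommRing A] [IsLocalRing A] [Algebra 𝒪 A]
    (hA : IsTestAlgebra 𝒪 A) {r : 𝒪} (hr : r ∈ maximalIdeal 𝒪) :
    algebraMap 𝒪 A r ∈ maximalIdeal A := by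
  rw [mem_maximalIdeal, mem_nonunits_iff] at hr ⊢
  intro h
  have := hA.isLocalHom
  exact hr (isUnit_of_map_unit (algebraMap 𝒪 A) r h)

theorem IsTestAlgebra.algebraMap_mem_iff {A : Type} [CommRing A] [IsLocalRing A] [Algebra 𝒪 A]
    (hA : IsTestAlgebra 𝒪 A) {r : 𝒪} :
    algebraMap 𝒪 A r ∈ maximalIdeal A ↔ r ∈ maximalIdeal 𝒪 := by
  refine ⟨fun h => ?_, hA.algebraMap_mem⟩
  rw [mem_maximalIdeal, mem_nonunits_iff] at h ⊢
  exact fun hr => h (hr.map _)

/-- Every `𝒪`-algebra map from a local ring to a test algebra is local. -/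
theorem isLocalHom_of_isTestAlgebra {A B : Type} [CommRing A] [IsLocalRing A] [Algebra 𝒪 A]
    [CommRing B] [IsLocalRing B] [Algebra 𝒪 B] (hB : IsTestAlgebra 𝒪 B) (φ : A →ₐ[𝒪] B) :
    IsLocalHom (φ : A →+* B) := by
  refine ⟨fun a ha => ?_⟩
  by_contra hna
  obtain ⟨c, hc⟩ := ha.exists_right_inv
  obtain ⟨x, hx⟩ := hB.exists_sub_mem c
  -- `y = a * x` is a nonunit, so `1 - y` is a unit
  have hy : a * algebraMap 𝒪 A x ∈ nonunits A := by
    have : a * algebraMap 𝒪 A x ∈ maximalIdeal A :=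
      Ideal.mul_mem_right _ _ ((mem_maximalIdeal a).mpr hna)
    exact (mem_maximalIdeal _).mp this
  have h1 : IsUnit (1 - a * algebraMap 𝒪 A x) := isUnit_one_sub_self_of_mem_nonunits _ hy
  have h2 : (φ : A →+* B) (1 - a * algebraMap 𝒪 A x) =
      (φ : A →+* B) a * (c - algebraMap 𝒪 B x) := by
    simp only [RingHom.coe_coe, map_sub, map_one, map_mul, AlgHom.commutes] at hc ⊢
    rw [mul_sub, hc]
  have h3 : (φ : A →+* B) a * (c - algebraMap 𝒪 B x) ∈ maximalIdeal B :=
    Ideal.mul_mem_left _ _ hx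
  have h4 := h1.map (φ : A →+* B)
  rw [h2] at h4
  exact (mem_maximalIdeal _).mp h3 h4

end Basic

section Nilpotent

variable {A : Type*} [CommRing A]

/-- A ring is adically complete with respect to a nilpotent ideal. -/
theorem isAdicComplete_of_pow_eq_bot {I : Ideal A} {N : ℕ} (h : I ^ N = ⊥) :
    IsAdicComplete I A := by
  have : IsHausdorff I A := by
    refine ⟨fun x hx => ?_⟩
    have := hx N
    rw [SModEq.sub_mem, sub_zero, smul_eq_mul, Ideal.mul_top, h, Ideal.mem_bot] at this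
    exact this
  have : IsPrecomplete I A := by
    refine ⟨fun f hf => ⟨f N, fun n => ?_⟩⟩
    rcases le_total n N with hn | hn
    · exact hf hn
    · have := hf hn
      rw [SModEq.sub_mem, smul_eq_mul, Ideal.mul_top, h, Ideal.mem_bot, sub_eq_zero] at this
      rw [this]
  exact {}

theorem exists_maximalIdeal_pow_eq_bot (A : Type*) [CommRing A] [IsLocalRing A]
    [IsArtinianRing A] : ∃ N : ℕ, maximalIdeal A ^ N = ⊥ :=
  (isArtinianRing_iff_isNilpotent_maximalIdeal A).mp inferInstance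

theorem isAdicComplete_of_isArtinianRing (A : Type*) [CommRing A] [IsLocalRing A]
    [IsArtinianRing A] : IsAdicComplete (maximalIdeal A) A := by
  obtain ⟨N, hN⟩ := exists_maximalIdeal_pow_eq_bot A
  exact isAdicComplete_of_pow_eq_bot hN

end Nilpotent

section Transfer

variable {𝒪 : Type} [CommRing 𝒪] [IsLocalRing 𝒪]
variable {A B : Type} [CommRing A] [IsLocalRing A] [Algebra 𝒪 A] [CommRing B] [Algebra 𝒪 B]

theorem isLocalRing_quotient {A : Type*} [CommRing A] [IsLocalRing A] {J : Ideal A}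
    (hJ : J ≠ ⊤) : IsLocalRing (A ⧸ J) :=
  haveI : Nontrivial (A ⧸ J) := Ideal.Quotient.nontrivial_iff.mpr hJ
  IsLocalRing.of_surjective' (Ideal.Quotient.mk J) Ideal.Quotient.mk_surjective

/-- A surjective image of a test algebra is a test algebra. -/
theorem IsTestAlgebra.of_surjective [IsLocalRing B] (hA : IsTestAlgebra 𝒪 A) (φ : A →ₐ[𝒪] B)
    (hφ : Function.Surjective φ) : IsTestAlgebra 𝒪 B := by
  have hloc : IsLocalHom (φ : A →+* B) := Function.Surjective.isLocalHom (φ : A →+* B) hφ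
  refine ⟨⟨fun r hr => ?_⟩, fun x => ?_⟩
  · have := hA.isLocalHom
    rw [← φ.commutes] at hr
    exact isUnit_of_map_unit (algebraMap 𝒪 A) r (isUnit_of_map_unit (φ : A →+* B) _ hr)
  · obtain ⟨b, rfl⟩ := IsLocalRing.residue_surjective x
    obtain ⟨a, rfl⟩ := hφ b
    obtain ⟨r, hr⟩ := hA.exists_sub_mem a
    refine ⟨r, ?_⟩
    rw [Function.comp_apply, ← sub_eq_zero, ← map_sub, residue_eq_zero_iff, ← φ.commutes,
      ← map_sub, ← neg_sub, map_neg]
    refine neg_mem ?_
    rw [← map_maximalIdeal_of_surjective (φ : A →+* B) hφ]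
    exact Ideal.mem_map_of_mem _ hr

/-- A ring which embeds into a finite local ring is local. -/
theorem isLocalRing_of_injective [Finite A] [Nontrivial B] (ι : B →+* A)
    (hι : Function.Injective ι) : IsLocalRing B ∧ IsLocalHom ι := by
  have hfin : Finite B := Finite.of_injective ι hι
  have hunit : ∀ b : B, IsUnit (ι b) → IsUnit b := by
    intro b hb
    -- `b` is injective as a multiplication map on a finite set, hence surjective
    have hinj : Function.Injective (fun x : B => b * x) := by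
      intro x y hxy
      apply hι
      have : ι b * ι x = ι b * ι y := by rw [← map_mul, ← map_mul]; exact congrArg ι hxy
      exact hb.mul_left_cancel this
    obtain ⟨c, hc⟩ := (Finite.injective_iff_surjective.mp hinj) 1
    exact IsUnit.of_mul_eq_one c hc
  refine ⟨IsLocalRing.of_nonunits_add fun a b ha hb => ?_, ⟨hunit⟩⟩
  rw [mem_nonunits_iff] at ha hb ⊢
  intro hab
  have ha' : ι a ∈ maximalIdeal A := (mem_maximalIdeal _).mpr fun h => ha (hunit a h)
  have hb' : ι b ∈ maximalIdeal A := (mem_maximalIdeal _).mpr fun h => hb (hunit b h)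
  have := Ideal.add_mem _ ha' hb'
  rw [← map_add] at this
  exact (mem_maximalIdeal _).mp this (hab.map ι)

/-- A local algebra which embeds into a finite test algebra is a test algebra. -/
theorem IsTestAlgebra.of_injective [Finite A] [IsLocalRing B] (hA : IsTestAlgebra 𝒪 A)
    (ι : B →ₐ[𝒪] A) (hι : Function.Injective ι) : IsTestAlgebra 𝒪 B := by
  have hloc : IsLocalHom (ι : B →+* A) := (isLocalRing_of_injective (ι : B →+* A) hι).2
  refine ⟨⟨fun r hr => ?_⟩, fun x => ?_⟩
  · have := hA.isLocalHom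
    have h1 := hr.map (ι : B →+* A)
    rw [RingHom.coe_coe, ι.commutes] at h1
    exact isUnit_of_map_unit (algebraMap 𝒪 A) r h1
  · obtain ⟨b, rfl⟩ := IsLocalRing.residue_surjective x
    obtain ⟨r, hr⟩ := hA.exists_sub_mem (ι b)
    refine ⟨r, ?_⟩
    rw [Function.comp_apply, ← sub_eq_zero, ← map_sub, residue_eq_zero_iff, ← neg_sub]
    refine neg_mem ?_
    rw [mem_maximalIdeal, mem_nonunits_iff]
    intro h
    have h1 := h.map (ι : B →+* A)
    rw [RingHom.coe_coe, map_sub, ι.commutes] at h1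
    exact (mem_maximalIdeal _).mp hr h1

end Transfer


section Resk

variable {𝒪 : Type} [CommRing 𝒪] [IsLocalRing 𝒪]
variable {A : Type} [CommRing A] [IsLocalRing A] [Algebra 𝒪 A]

theorem IsTestAlgebra.residueFieldMap_bijective (hA : IsTestAlgebra 𝒪 A) :
    haveI := hA.isLocalHom
    Function.Bijective (ResidueField.map (algebraMap 𝒪 A)) := by
  have := hA.isLocalHom
  refine ⟨(ResidueField.map (algebraMap 𝒪 A)).injective, fun x => ?_⟩
  obtain ⟨r, hr⟩ := hA.residue_surjective x
  exact ⟨residue 𝒪 r, by rw [ResidueField.map_residue]; exact hr⟩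

/-- The canonical map from a test algebra to the residue field of `𝒪`. -/
noncomputable def resk (hA : IsTestAlgebra 𝒪 A) : A →ₐ[𝒪] ResidueField 𝒪 :=
  haveI := hA.isLocalHom
  { toRingHom := ((RingEquiv.ofBijective (ResidueField.map (algebraMap 𝒪 A))
        hA.residueFieldMap_bijective).symm : ResidueField A →+* ResidueField 𝒪).comp (residue A)
    commutes' := fun r => by
      show (RingEquiv.ofBijective (ResidueField.map (algebraMap 𝒪 A))
        hA.residueFieldMap_bijective).symm (residue A (algebraMap 𝒪 A r)) = _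
      rw [RingEquiv.symm_apply_eq, RingEquiv.ofBijective_apply, ResidueField.algebraMap_eq,
        ResidueField.map_residue] }

theorem resk_eq_iff (hA : IsTestAlgebra 𝒪 A) (a : A) (r : 𝒪) :
    resk hA a = residue 𝒪 r ↔ a - algebraMap 𝒪 A r ∈ maximalIdeal A := by
  have := hA.isLocalHom
  show (RingEquiv.ofBijective (ResidueField.map (algebraMap 𝒪 A))
        hA.residueFieldMap_bijective).symm (residue A a) = _ ↔ _
  rw [RingEquiv.symm_apply_eq, RingEquiv.ofBijective_apply, ResidueField.map_residue,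
    ← sub_eq_zero, ← map_sub, residue_eq_zero_iff]

theorem resk_eq_zero_iff (hA : IsTestAlgebra 𝒪 A) (a : A) :
    resk hA a = 0 ↔ a ∈ maximalIdeal A := by
  have := resk_eq_iff hA a 0
  rwa [map_zero, map_zero, sub_zero] at this

theorem resk_surjective (hA : IsTestAlgebra 𝒪 A) : Function.Surjective (resk hA) := by
  intro x
  obtain ⟨r, rfl⟩ := IsLocalRing.residue_surjective x
  exact ⟨algebraMap 𝒪 A r, by rw [AlgHom.commutes, ResidueField.algebraMap_eq]⟩

theorem resk_eq_resk_iff {B : Type} [CommRing B] [IsLocalRing B] [Algebra 𝒪 B]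
    (hA : IsTestAlgebra 𝒪 A) (hB : IsTestAlgebra 𝒪 B) (a : A) (b : B) :
    resk hA a = resk hB b ↔
      ∃ r : 𝒪, a - algebraMap 𝒪 A r ∈ maximalIdeal A ∧ b - algebraMap 𝒪 B r ∈ maximalIdeal B := by
  constructor
  · intro h
    obtain ⟨r, hr⟩ := IsLocalRing.residue_surjective (resk hA a)
    exact ⟨r, (resk_eq_iff hA a r).mp hr.symm, (resk_eq_iff hB b r).mp (h ▸ hr.symm)⟩
  · rintro ⟨r, h1, h2⟩
    rw [(resk_eq_iff hA a r).mpr h1, (resk_eq_iff hB b r).mpr h2]

theorem resk_comp {B : Type} [CommRing B] [IsLocalRing B] [Algebra 𝒪 B]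
    (hA : IsTestAlgebra 𝒪 A) (hB : IsTestAlgebra 𝒪 B) (φ : A →ₐ[𝒪] B) (a : A) :
    resk hB (φ a) = resk hA a := by
  have hloc := isLocalHom_of_isTestAlgebra hB φ
  obtain ⟨r, hr⟩ := hA.exists_sub_mem a
  rw [(resk_eq_iff hA a r).mpr hr, resk_eq_iff, ← φ.commutes, ← map_sub]
  exact (mem_maximalIdeal _).mpr (map_nonunit (φ : A →+* B) _ hr)

end Resk

section Finite

variable {𝒪 : Type} [CommRing 𝒪] [IsLocalRing 𝒪]
variable {A : Type} [CommRing A] [IsLocalRing A] [Algebra 𝒪 A]

theorem IsTestAlgebra.finite_residueField [Finite (ResidueField 𝒪)] (hA : IsTestAlgebra 𝒪 A) :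
    Finite (ResidueField A) :=
  haveI := hA.isLocalHom
  Finite.of_surjective _ hA.residueFieldMap_bijective.2

theorem IsTestAlgebra.finite_quotient_pow [Finite (ResidueField 𝒪)] [IsNoetherianRing A]
    (hA : IsTestAlgebra 𝒪 A) (n : ℕ) : Finite (A ⧸ maximalIdeal A ^ n) := by
  have : Finite (A ⧸ maximalIdeal A) := hA.finite_residueField
  exact Ideal.finite_quotient_pow (IsNoetherian.noetherian _) n

/-- Artinian test algebras over `𝒪` with finite residue field are finite. -/
theorem IsTestAlgebra.finite_of_isArtinianRing [Finite (ResidueField 𝒪)] [IsArtinianRing A]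
    (hA : IsTestAlgebra 𝒪 A) : Finite A := by
  obtain ⟨N, hN⟩ := exists_maximalIdeal_pow_eq_bot A
  have h := hA.finite_quotient_pow N
  rw [hN] at h
  exact Finite.of_equiv _ (RingEquiv.quotientBot A).toEquiv

end Finite

section ResidueFieldTest

variable (𝒪 : Type) [CommRing 𝒪] [IsLocalRing 𝒪]

theorem isTestAlgebra_residueField : IsTestAlgebra 𝒪 (ResidueField 𝒪) := by
  refine ⟨?_, ?_⟩
  · rw [ResidueField.algebraMap_eq]; infer_instance
  · rw [ResidueField.algebraMap_eq]
    exact IsLocalRing.residue_surjective.comp IsLocalRing.residue_surjective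

theorem isArtinianTestAlgebra_residueField :
    GaloisRep.IsArtinianTestAlgebra 𝒪 (ResidueField 𝒪) :=
  (isTestAlgebra_residueField 𝒪).artinian

theorem resk_residueField (x : ResidueField 𝒪) :
    resk (isTestAlgebra_residueField 𝒪) x = x := by
  obtain ⟨r, rfl⟩ := IsLocalRing.residue_surjective x
  rw [resk_eq_iff, ResidueField.algebraMap_eq, sub_self]
  exact zero_mem _

end ResidueFieldTest



section DualNumber

variable (𝒪 : Type) [CommRing 𝒪] [IsLocalRing 𝒪]

local notation "k" => ResidueField 𝒪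

theorem dualNumber_algebraMap_apply (r : 𝒪) :
    letI := dualNumberAlgebra 𝒪
    algebraMap 𝒪 (DualNumber k) r = TrivSqZeroExt.inl (residue 𝒪 r) := by
  letI := dualNumberAlgebra 𝒪
  show (algebraMap k (DualNumber k)) (algebraMap 𝒪 k r) = _
  rw [TrivSqZeroExt.algebraMap_eq_inl, ResidueField.algebraMap_eq]

theorem dualNumber_mem_maximalIdeal_iff (x : DualNumber k) :
    x ∈ maximalIdeal (DualNumber k) ↔ x.fst = 0 := by
  rw [mem_maximalIdeal, mem_nonunits_iff, TrivSqZeroExt.isUnit_iff_isUnit_fst, isUnit_iff_ne_zero,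
    not_not]

theorem isTestAlgebra_dualNumber :
    letI := dualNumberAlgebra 𝒪
    IsTestAlgebra 𝒪 (DualNumber k) := by
  letI := dualNumberAlgebra 𝒪
  refine ⟨⟨fun r hr => ?_⟩, fun x => ?_⟩
  · rw [dualNumber_algebraMap_apply, TrivSqZeroExt.isUnit_iff_isUnit_fst,
      TrivSqZeroExt.fst_inl] at hr
    exact isUnit_of_map_unit (residue 𝒪) r hr
  · obtain ⟨y, rfl⟩ := IsLocalRing.residue_surjective x
    obtain ⟨r, hr⟩ := IsLocalRing.residue_surjective y.fst
    refine ⟨r, ?_⟩
    rw [Function.comp_apply, ← sub_eq_zero, ← map_sub, residue_eq_zero_iff,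
      dualNumber_mem_maximalIdeal_iff, dualNumber_algebraMap_apply, TrivSqZeroExt.fst_sub,
      TrivSqZeroExt.fst_inl, hr, sub_self]

theorem finite_dualNumber [Finite k] : Finite (DualNumber k) :=
  inferInstanceAs (Finite (k × k))

theorem isArtinianTestAlgebra_dualNumber [Finite k] :
    letI := dualNumberAlgebra 𝒪
    GaloisRep.IsArtinianTestAlgebra 𝒪 (DualNumber k) := by
  letI := dualNumberAlgebra 𝒪
  have := finite_dualNumber 𝒪
  exact (isTestAlgebra_dualNumber 𝒪).artinian

variable {𝒪}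
variable {A : Type} [CommRing A] [Algebra 𝒪 A]

/-- The `𝒪`-algebra map `A → k[ε]`, `a ↦ ρ a + D a ε`, attached to an algebra map `ρ : A → k`
and a `ρ`-derivation `D : A → k`. -/
noncomputable def dualNumberHom (ρ : A →ₐ[𝒪] k) (D : A → k)
    (hadd : ∀ a b, D (a + b) = D a + D b)
    (hmul : ∀ a b, D (a * b) = ρ a * D b + ρ b * D a)
    (halg : ∀ r, D (algebraMap 𝒪 A r) = 0) :
    letI := dualNumberAlgebra 𝒪
    A →ₐ[𝒪] DualNumber k :=
  letI := dualNumberAlgebra 𝒪
  have h0 : D 0 = 0 := by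
    have := hadd 0 0
    rw [add_zero] at this
    exact left_eq_add.mp this
  have h1 : D 1 = 0 := by
    have := halg 1
    rwa [map_one] at this
  { toFun := fun a => TrivSqZeroExt.inl (ρ a) + TrivSqZeroExt.inr (D a)
    map_one' := by
      rw [map_one, h1, TrivSqZeroExt.inr_zero, add_zero, TrivSqZeroExt.inl_one]
    map_mul' := fun a b => by
      refine TrivSqZeroExt.ext ?_ ?_
      · simp
      · rw [DualNumber.snd_mul]
        simp only [TrivSqZeroExt.snd_add, TrivSqZeroExt.snd_inl, TrivSqZeroExt.snd_inr,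
          TrivSqZeroExt.fst_add, TrivSqZeroExt.fst_inl, TrivSqZeroExt.fst_inr, zero_add, add_zero]
        rw [hmul, mul_comm (D a) (ρ b)]
    map_zero' := by
      rw [map_zero, h0, TrivSqZeroExt.inr_zero, add_zero, TrivSqZeroExt.inl_zero]
    map_add' := fun a b => by
      rw [map_add, hadd, TrivSqZeroExt.inl_add, TrivSqZeroExt.inr_add]
      abel
    commutes' := fun r => by
      rw [halg, TrivSqZeroExt.inr_zero, add_zero, AlgHom.commutes, dualNumber_algebraMap_apply,
        ResidueField.algebraMap_eq] }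

theorem dualNumberHom_apply (ρ : A →ₐ[𝒪] k) (D : A → k)
    (hadd : ∀ a b, D (a + b) = D a + D b)
    (hmul : ∀ a b, D (a * b) = ρ a * D b + ρ b * D a)
    (halg : ∀ r, D (algebraMap 𝒪 A r) = 0) (a : A) :
    dualNumberHom ρ D hadd hmul halg a = TrivSqZeroExt.inl (ρ a) + TrivSqZeroExt.inr (D a) :=
  rfl

end DualNumber


section QuotPow

variable {𝒪 : Type} [CommRing 𝒪] [IsLocalRing 𝒪]
variable {A : Type} [CommRing A] [IsLocalRing A] [Algebra 𝒪 A]

theorem maximalIdeal_pow_ne_top (A : Type*) [CommRing A] [IsLocalRing A] (n : ℕ) :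
    maximalIdeal A ^ (n + 1) ≠ ⊤ := by
  intro h
  have h1 : maximalIdeal A ^ (n + 1) ≤ maximalIdeal A := Ideal.pow_le_self (by omega)
  rw [h] at h1
  exact (maximalIdeal.isMaximal A).ne_top (top_le_iff.mp h1)

/-- If `J` contains a power of the maximal ideal of a noetherian local ring, the quotient is
artinian. -/
theorem isArtinianRing_quotient_of_pow_le [IsNoetherianRing A] {J : Ideal A}
    [IsLocalRing (A ⧸ J)] {N : ℕ} (hN : maximalIdeal A ^ N ≤ J) : IsArtinianRing (A ⧸ J) := by
  rw [isArtinianRing_iff_isNilpotent_maximalIdeal]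
  refine ⟨N, ?_⟩
  rw [← map_maximalIdeal_of_surjective (Ideal.Quotient.mk J) Ideal.Quotient.mk_surjective,
    ← Ideal.map_pow, Ideal.zero_eq_bot, Ideal.map_eq_bot_iff_le_ker, Ideal.mk_ker]
  exact hN

theorem IsTestAlgebra.quotient (hA : IsTestAlgebra 𝒪 A) (J : Ideal A) [IsLocalRing (A ⧸ J)] :
    IsTestAlgebra 𝒪 (A ⧸ J) :=
  hA.of_surjective (Ideal.Quotient.mkₐ 𝒪 J) (Ideal.Quotient.mkₐ_surjective 𝒪 J)

end QuotPow

section LocalOfField

/-- A ring with a ring map to a field detecting units is local. -/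
theorem isLocalRing_of_field_hom {P K : Type*} [CommRing P] [Field K] (f : P →+* K)
    (h : ∀ x, f x ≠ 0 → IsUnit x) : IsLocalRing P := by
  haveI : Nontrivial P := by
    refine ⟨⟨0, 1, fun h01 => ?_⟩⟩
    have := congrArg f h01
    rw [map_zero, map_one] at this
    exact zero_ne_one this
  refine IsLocalRing.of_nonunits_add fun a b ha hb => ?_
  rw [mem_nonunits_iff] at ha hb ⊢
  have ha' : f a = 0 := by_contra fun h' => ha (h a h')
  have hb' : f b = 0 := by_contra fun h' => hb (h b h')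
  intro hab
  have := hab.map f
  rw [map_add, ha', hb', add_zero] at this
  exact not_isUnit_zero this

end LocalOfField

section FibreProd

variable {𝒪 : Type} [CommRing 𝒪] [IsLocalRing 𝒪]
variable {A B : Type} [CommRing A] [IsLocalRing A] [Algebra 𝒪 A]
  [CommRing B] [IsLocalRing B] [Algebra 𝒪 B]

/-- The fibre product of two test algebras over the residue field of `𝒪`. -/
noncomputable def fibreProd (hA : IsTestAlgebra 𝒪 A) (hB : IsTestAlgebra 𝒪 B) :
    Subalgebra 𝒪 (A × B) :=
  AlgHom.equalizer ((resk hA).comp (AlgHom.fst 𝒪 A B)) ((resk hB).comp (AlgHom.snd 𝒪 A B))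

theorem mem_fibreProd (hA : IsTestAlgebra 𝒪 A) (hB : IsTestAlgebra 𝒪 B) (x : A × B) :
    x ∈ fibreProd hA hB ↔ resk hA x.1 = resk hB x.2 := Iff.rfl

/-- First projection of the fibre product. -/
noncomputable def fibreProd.fst (hA : IsTestAlgebra 𝒪 A) (hB : IsTestAlgebra 𝒪 B) :
    fibreProd hA hB →ₐ[𝒪] A :=
  (AlgHom.fst 𝒪 A B).comp (fibreProd hA hB).val

/-- Second projection of the fibre product. -/
noncomputable def fibreProd.snd (hA : IsTestAlgebra 𝒪 A) (hB : IsTestAlgebra 𝒪 B) :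
    fibreProd hA hB →ₐ[𝒪] B :=
  (AlgHom.snd 𝒪 A B).comp (fibreProd hA hB).val

theorem fibreProd.resk_fst (hA : IsTestAlgebra 𝒪 A) (hB : IsTestAlgebra 𝒪 B)
    (x : fibreProd hA hB) : resk hA (fibreProd.fst hA hB x) = resk hB (fibreProd.snd hA hB x) :=
  x.2

theorem fibreProd.isUnit_of_resk_ne_zero (hA : IsTestAlgebra 𝒪 A) (hB : IsTestAlgebra 𝒪 B)
    (x : fibreProd hA hB) (hx : resk hA (fibreProd.fst hA hB x) ≠ 0) : IsUnit x := by
  have hxa : IsUnit (fibreProd.fst hA hB x) := by
    by_contra h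
    exact hx ((resk_eq_zero_iff hA _).mpr ((mem_maximalIdeal _).mpr h))
  have hxb : IsUnit (fibreProd.snd hA hB x) := by
    by_contra h
    exact hx ((fibreProd.resk_fst hA hB x).trans
      ((resk_eq_zero_iff hB _).mpr ((mem_maximalIdeal _).mpr h)))
  obtain ⟨a', ha'⟩ := hxa.exists_right_inv
  obtain ⟨b', hb'⟩ := hxb.exists_right_inv
  have hmem : (a', b') ∈ fibreProd hA hB := by
    rw [mem_fibreProd]
    have h1 : resk hA (fibreProd.fst hA hB x) * resk hA a' = 1 := by
      rw [← map_mul, ha', map_one]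
    have h2 : resk hA (fibreProd.fst hA hB x) * resk hB b' = 1 := by
      rw [fibreProd.resk_fst, ← map_mul, hb', map_one]
    exact mul_left_cancel₀ hx (h1.trans h2.symm)
  refine IsUnit.of_mul_eq_one ⟨(a', b'), hmem⟩ ?_
  apply Subtype.ext
  exact Prod.ext ha' hb'

instance fibreProd.isLocalRing (hA : IsTestAlgebra 𝒪 A) (hB : IsTestAlgebra 𝒪 B) :
    IsLocalRing (fibreProd hA hB) :=
  isLocalRing_of_field_hom
    (((resk hA).comp (fibreProd.fst hA hB) : fibreProd hA hB →ₐ[𝒪] ResidueField 𝒪) :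
      fibreProd hA hB →+* ResidueField 𝒪)
    (fun x hx => fibreProd.isUnit_of_resk_ne_zero hA hB x hx)

theorem fibreProd.mem_maximalIdeal_iff (hA : IsTestAlgebra 𝒪 A) (hB : IsTestAlgebra 𝒪 B)
    (x : fibreProd hA hB) :
    x ∈ maximalIdeal (fibreProd hA hB) ↔ fibreProd.fst hA hB x ∈ maximalIdeal A := by
  rw [mem_maximalIdeal, mem_nonunits_iff, mem_maximalIdeal, mem_nonunits_iff, not_iff_not]
  refine ⟨fun h => h.map (fibreProd.fst hA hB), fun h => ?_⟩
  refine fibreProd.isUnit_of_resk_ne_zero hA hB x fun h0 => ?_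
  exact (mem_maximalIdeal _).mp ((resk_eq_zero_iff hA _).mp h0) h

theorem fibreProd.isTestAlgebra (hA : IsTestAlgebra 𝒪 A) (hB : IsTestAlgebra 𝒪 B) :
    IsTestAlgebra 𝒪 (fibreProd hA hB) := by
  refine ⟨⟨fun r hr => ?_⟩, fun x => ?_⟩
  · have := hA.isLocalHom
    have h1 := hr.map (fibreProd.fst hA hB)
    rw [AlgHom.commutes] at h1
    exact isUnit_of_map_unit (algebraMap 𝒪 A) r h1
  · obtain ⟨y, rfl⟩ := IsLocalRing.residue_surjective x
    obtain ⟨r, hr⟩ := hA.exists_sub_mem (fibreProd.fst hA hB y)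
    refine ⟨r, ?_⟩
    rw [Function.comp_apply, ← sub_eq_zero, ← map_sub, residue_eq_zero_iff, ← neg_sub]
    refine neg_mem ?_
    rw [fibreProd.mem_maximalIdeal_iff, map_sub, AlgHom.commutes]
    exact hr

theorem fibreProd.finite [Finite A] [Finite B] (hA : IsTestAlgebra 𝒪 A) (hB : IsTestAlgebra 𝒪 B) :
    Finite (fibreProd hA hB) :=
  Subtype.finite

theorem fibreProd.isArtinianTestAlgebra [Finite A] [Finite B] (hA : IsTestAlgebra 𝒪 A)
    (hB : IsTestAlgebra 𝒪 B) : GaloisRep.IsArtinianTestAlgebra 𝒪 (fibreProd hA hB) :=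
  have := fibreProd.finite hA hB
  (fibreProd.isTestAlgebra hA hB).artinian

theorem fibreProd.injective (hA : IsTestAlgebra 𝒪 A) (hB : IsTestAlgebra 𝒪 B) :
    Function.Injective (fun x : fibreProd hA hB => (fibreProd.fst hA hB x, fibreProd.snd hA hB x)) :=
  fun _ _ h => Subtype.ext h

theorem fibreProd.exists_of_resk_eq (hA : IsTestAlgebra 𝒪 A) (hB : IsTestAlgebra 𝒪 B) (a : A) (b : B)
    (h : resk hA a = resk hB b) :
    ∃ x : fibreProd hA hB, fibreProd.fst hA hB x = a ∧ fibreProd.snd hA hB x = b :=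
  ⟨⟨(a, b), h⟩, rfl, rfl⟩

theorem fibreProd.comp_eq (hA : IsTestAlgebra 𝒪 A) (hB : IsTestAlgebra 𝒪 B) :
    (resk hA).comp (fibreProd.fst hA hB) = (resk hB).comp (fibreProd.snd hA hB) :=
  AlgHom.ext fun x => fibreProd.resk_fst hA hB x

end FibreProd

end Fermat.Agent.Lib.Deform
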