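/-
Generic commutative algebra used in the proof of the abstract pro-representability theorem of
S53: successive approximation in an adically complete ring, quotients of complete noetherian
local test algebras, and factorisation of surjections onto artinian local rings.
-/
import Fermat.Agent.Lib.Deform.TestAlg
import Fermat.Prelude.Thm_IsLocalRing_isAdicComplete_of_module_finite

set_option autoImplicit false
set_option linter.style.haveILetI false

namespace Fermat.Agent.Lib.Deform.Key

open IsLocalRing Function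

section Approx

variable {S : Type*} [CommRing S]

/-- **Successive approximation.**  Let `S` be `m`-adically complete and `K 0 ≥ K 1 ≥ …` ideals with
`m ^ (n + a) ≤ K n` and `K n ≤ K (n+1) + m ^ (n + a)`.  Then `K n ≤ (⨅ j, K j) + m ^ (n + a)`. -/
theorem le_iInf_sup_pow (m : Ideal S) [IsAdicComplete m S] (a : ℕ) (K : ℕ → Ideal S)
    (hanti : ∀ n, K (n + 1) ≤ K n)
    (hK : ∀ n, m ^ (n + a) ≤ K n) (hstep : ∀ n, K n ≤ K (n + 1) ⊔ m ^ (n + a)) (n : ℕ) :
    K n ≤ (⨅ j, K j) ⊔ m ^ (n + a) := by
  classical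
  intro x hx
  have hantitone : Antitone K := antitone_nat_of_succ_le hanti
  -- one approximation step
  have step : ∀ (j : ℕ) (y : S), y ∈ K (n + j) →
      ∃ y' ∈ K (n + j + 1), y - y' ∈ m ^ (n + j + a) := by
    intro j y hy
    obtain ⟨y', hy', z, hz, rfl⟩ := Submodule.mem_sup.mp (hstep (n + j) hy)
    exact ⟨y', hy', by simpa using hz⟩
  -- the sequence of approximations
  let seq : ∀ j : ℕ, {y : S // y ∈ K (n + j)} := fun j =>
    Nat.rec ⟨x, hx⟩ (fun j y => ⟨(step j y.1 y.2).choose, (step j y.1 y.2).choose_spec.1⟩) j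
  have hseq0 : (seq 0).1 = x := rfl
  have hseq : ∀ j, (seq j).1 - (seq (j + 1)).1 ∈ m ^ (n + j + a) := fun j =>
    (step j (seq j).1 (seq j).2).choose_spec.2
  -- Cauchy estimate
  have hcauchy : ∀ i j : ℕ, i ≤ j → (seq i).1 - (seq j).1 ∈ m ^ (n + i + a) := by
    intro i j hij
    induction j, hij using Nat.le_induction with
    | base => simp
    | succ j hij ih =>
      have h1 : (seq i).1 - (seq (j + 1)).1 =
          ((seq i).1 - (seq j).1) + ((seq j).1 - (seq (j + 1)).1) := by ring
      rw [h1]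
      refine Ideal.add_mem _ ih (Ideal.pow_le_pow_right (by omega) (hseq j))
  -- the limit
  obtain ⟨L, hL⟩ := IsPrecomplete.prec (I := m) (M := S) inferInstance (f := fun j => (seq j).1)
    (by
      intro i j hij
      rw [SModEq.sub_mem, smul_eq_mul, Ideal.mul_top]
      exact Ideal.pow_le_pow_right (by omega) (hcauchy i j hij))
  have hL' : ∀ j, (seq j).1 - L ∈ m ^ j := by
    intro j
    have := hL j
    rwa [SModEq.sub_mem, smul_eq_mul, Ideal.mul_top] at this
  -- `L` lies in every `K i`
  have hLK : L ∈ ⨅ j, K j := by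
    rw [Submodule.mem_iInf]
    intro i
    have h1 : (seq (i + a)).1 ∈ K i := hantitone (by omega) (seq (i + a)).2
    have h2 : (seq (i + a)).1 - L ∈ K i := hK i (hL' (i + a))
    have h3 : L = (seq (i + a)).1 - ((seq (i + a)).1 - L) := by ring
    rw [h3]
    exact Ideal.sub_mem _ h1 h2
  -- `x - L ∈ m ^ (n + a)`
  have hxL : x - L ∈ m ^ (n + a) := by
    have h1 : x - L = ((seq 0).1 - (seq (n + a)).1) + ((seq (n + a)).1 - L) := by
      rw [hseq0]; ring
    rw [h1]
    refine Ideal.add_mem _ ?_ (hL' (n + a))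
    simpa using hcauchy 0 (n + a) (Nat.zero_le _)
  have h3 : x = L + (x - L) := by ring
  rw [h3]
  exact Submodule.add_mem_sup hLK hxL

end Approx

section Quotient

variable {S : Type*} [CommRing S] [IsLocalRing S]

/-- The maximal ideal of a local quotient is the image of the maximal ideal. -/
theorem maximalIdeal_quotient (J : Ideal S) [IsLocalRing (S ⧸ J)] :
    maximalIdeal (S ⧸ J) = (maximalIdeal S).map (Ideal.Quotient.mk J) :=
  (map_maximalIdeal_of_surjective (Ideal.Quotient.mk J) Ideal.Quotient.mk_surjective).symm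

theorem maximalIdeal_quotient_pow (J : Ideal S) [IsLocalRing (S ⧸ J)] (n : ℕ) :
    maximalIdeal (S ⧸ J) ^ n = (maximalIdeal S ^ n).map (Ideal.Quotient.mk J) := by
  rw [maximalIdeal_quotient, Ideal.map_pow]

/-- The kernel of `S → (S ⧸ J) ⧸ 𝔪ⁿ` is `J + 𝔪ⁿ`. -/
theorem comap_maximalIdeal_quotient_pow (J : Ideal S) [IsLocalRing (S ⧸ J)] (n : ℕ) :
    (maximalIdeal (S ⧸ J) ^ n).comap (Ideal.Quotient.mk J) = maximalIdeal S ^ n ⊔ J := by
  rw [maximalIdeal_quotient_pow, Ideal.comap_map_of_surjective _ Ideal.Quotient.mk_surjective,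
    ← RingHom.ker_eq_comap_bot, Ideal.mk_ker]

/-- A local quotient of a complete noetherian local ring is complete. -/
theorem isAdicComplete_quotient [IsNoetherianRing S] [IsAdicComplete (maximalIdeal S) S]
    (J : Ideal S) [IsLocalRing (S ⧸ J)] :
    IsAdicComplete (maximalIdeal (S ⧸ J)) (S ⧸ J) := by
  haveI : IsLocalHom (algebraMap S (S ⧸ J)) :=
    Function.Surjective.isLocalHom (algebraMap S (S ⧸ J)) Ideal.Quotient.mk_surjective
  exact IsLocalRing.isAdicComplete_of_module_finite (𝒪 := S) (T := S ⧸ J)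

end Quotient

section Factor

variable {R B : Type*} [CommRing R] [IsLocalRing R] [CommRing B] [IsLocalRing B]

/-- A local homomorphism to an artinian local ring kills a power of the maximal ideal. -/
theorem exists_pow_le_ker [IsArtinianRing B] (q : R →+* B) [IsLocalHom q] :
    ∃ n : ℕ, maximalIdeal R ^ n ≤ RingHom.ker q := by
  obtain ⟨N, hN⟩ := exists_maximalIdeal_pow_eq_bot B
  refine ⟨N, fun x hx => ?_⟩
  have h1 : (maximalIdeal R).map q ≤ maximalIdeal B :=
    ((IsLocalRing.local_hom_TFAE q).out 0 2).mp ‹IsLocalHom q›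
  have h2 : q x ∈ (maximalIdeal R ^ N).map q := Ideal.mem_map_of_mem q hx
  rw [Ideal.map_pow] at h2
  have h3 := Ideal.pow_right_mono h1 N h2
  rw [hN, Ideal.mem_bot] at h3
  exact h3

end Factor

end Fermat.Agent.Lib.Deform.Key
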