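/-
Key lemmas for the abstract pro-representability theorem of S53:
tangent vectors of finite local test algebras separate proper subalgebras, hence a finite set of
coordinates separating `F(k[ε])` generates every tight object and determines every element of
`F A` (`A` an artinian test algebra).
-/
import Fermat.Agent.Lib.Deform.TestAlg

set_option autoImplicit false
set_option linter.style.haveILetI false

namespace Fermat.Agent.Lib.Deform.Key

open IsLocalRing Function

section Adjoin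

variable {𝒪 : Type} [CommRing 𝒪] [IsLocalRing 𝒪]
variable {A : Type} [CommRing A] [IsLocalRing A] [Algebra 𝒪 A]

/-- If a subalgebra `B` of a test algebra with nilpotent maximal ideal contains a set `G`
generating the maximal ideal (as an ideal), then `B = ⊤`. -/
theorem subalgebra_eq_top_of_span_eq (hA : IsTestAlgebra 𝒪 A) {N : ℕ}
    (hN : maximalIdeal A ^ N = ⊥) (B : Subalgebra 𝒪 A) (G : Set A) (hGB : G ⊆ B)
    (hG : Ideal.span G = maximalIdeal A) : B = ⊤ := by
  have hGm : ∀ g ∈ G, g ∈ maximalIdeal A := fun g hg => hG ▸ Ideal.subset_span hg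
  -- P n : every element of `𝔪^n` is congruent to an element of `B` modulo `𝔪^(n+1)`
  have P : ∀ n : ℕ, ∀ y ∈ maximalIdeal A ^ n, ∃ b ∈ B, y - b ∈ maximalIdeal A ^ (n + 1) := by
    intro n
    induction n with
    | zero =>
      intro y _
      obtain ⟨r, hr⟩ := hA.exists_sub_mem y
      exact ⟨algebraMap 𝒪 A r, B.algebraMap_mem r, by simpa using hr⟩
    | succ n ih =>
      intro y hy
      have hy' : y ∈ maximalIdeal A ^ n * Ideal.span G := by
        rw [hG]; rwa [pow_succ] at hy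
      -- Q z : for all `y ∈ 𝔪^n`, `y * z` is in `B + 𝔪^(n+2)`
      have Q : ∀ z ∈ Ideal.span G, ∀ y ∈ maximalIdeal A ^ n,
          ∃ b ∈ B, y * z - b ∈ maximalIdeal A ^ (n + 1 + 1) := by
        intro z hz
        induction hz using Submodule.span_induction with
        | mem g hg =>
          intro y hy
          obtain ⟨b, hb, hyb⟩ := ih y hy
          refine ⟨b * g, B.mul_mem hb (hGB hg), ?_⟩
          have : y * g - b * g = (y - b) * g := by ring
          rw [this, pow_succ (maximalIdeal A) (n + 1)]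
          exact Ideal.mul_mem_mul hyb (hGm g hg)
        | zero =>
          intro y _
          exact ⟨0, B.zero_mem, by simp⟩
        | add z₁ z₂ _ _ h₁ h₂ =>
          intro y hy
          obtain ⟨b₁, hb₁, h₁'⟩ := h₁ y hy
          obtain ⟨b₂, hb₂, h₂'⟩ := h₂ y hy
          refine ⟨b₁ + b₂, B.add_mem hb₁ hb₂, ?_⟩
          have : y * (z₁ + z₂) - (b₁ + b₂) = (y * z₁ - b₁) + (y * z₂ - b₂) := by ring
          rw [this]
          exact Ideal.add_mem _ h₁' h₂'
        | smul a z _ h =>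
          intro y hy
          obtain ⟨b, hb, h'⟩ := h (y * a) (Ideal.mul_mem_right _ _ hy)
          refine ⟨b, hb, ?_⟩
          have : y * (a • z) - b = y * a * z - b := by rw [smul_eq_mul]; ring
          rw [this]
          exact h'
      refine Submodule.mul_induction_on hy' (fun m hm z hz => Q z hz m hm) ?_
      rintro x₁ x₂ ⟨b₁, hb₁, h₁⟩ ⟨b₂, hb₂, h₂⟩
      refine ⟨b₁ + b₂, B.add_mem hb₁ hb₂, ?_⟩
      have : x₁ + x₂ - (b₁ + b₂) = (x₁ - b₁) + (x₂ - b₂) := by ring
      rw [this]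
      exact Ideal.add_mem _ h₁ h₂
  -- hence `A = B + 𝔪^n` for all `n`
  have T : ∀ n : ℕ, ∀ a : A, ∃ b ∈ B, a - b ∈ maximalIdeal A ^ n := by
    intro n
    induction n with
    | zero => intro a; exact ⟨0, B.zero_mem, by simp⟩
    | succ n ih =>
      intro a
      obtain ⟨b, hb, hab⟩ := ih a
      obtain ⟨b', hb', hab'⟩ := P n _ hab
      refine ⟨b + b', B.add_mem hb hb', ?_⟩
      have : a - (b + b') = a - b - b' := by ring
      rw [this]
      exact hab'
  rw [eq_top_iff]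
  intro a _
  obtain ⟨b, hb, hab⟩ := T N a
  rw [hN, Ideal.mem_bot, sub_eq_zero] at hab
  rw [hab]
  exact hb

end Adjoin

section Tangent

variable {𝒪 : Type} [CommRing 𝒪] [IsLocalRing 𝒪]
variable {A : Type} [CommRing A] [IsLocalRing A] [Algebra 𝒪 A]

/-- **Tangent vectors separate proper subalgebras.**  Let `A` be an artinian test algebra and
`s` a subset of its maximal ideal which does not generate `A` as an `𝒪`-algebra.  Then there is a
nonzero `𝒪`-derivation `D : A → k` (with respect to `resk : A → k`) vanishing on `s`. -/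
theorem exists_derivation_of_adjoin_ne_top [IsArtinianRing A]
    (hA : IsTestAlgebra 𝒪 A) (s : Set A) (hs : ∀ a ∈ s, a ∈ maximalIdeal A)
    (hB : Algebra.adjoin 𝒪 s ≠ ⊤) :
    ∃ D : A → ResidueField 𝒪, (∀ a b, D (a + b) = D a + D b) ∧
      (∀ a b, D (a * b) = resk hA a * D b + resk hA b * D a) ∧
      (∀ r, D (algebraMap 𝒪 A r) = 0) ∧ (∀ a ∈ s, D a = 0) ∧ ∃ a, D a ≠ 0 := by
  classical
  let G : Set A := s ∪ (algebraMap 𝒪 A '' (maximalIdeal 𝒪 : Set 𝒪))
  have hGm : ∀ g ∈ G, g ∈ maximalIdeal A := by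
    rintro g (hg | ⟨r, hr, rfl⟩)
    · exact hs g hg
    · exact hA.algebraMap_mem hr
  obtain ⟨N, hN⟩ := exists_maximalIdeal_pow_eq_bot A
  have hspan : Ideal.span G ≠ maximalIdeal A := by
    intro h
    apply hB
    refine subalgebra_eq_top_of_span_eq hA hN _ G ?_ h
    rintro g (hg | ⟨r, _, rfl⟩)
    · exact Algebra.subset_adjoin hg
    · exact Subalgebra.algebraMap_mem _ r
  let G' : Set (maximalIdeal A) := {x | (x : A) ∈ G}
  have hG' : Submodule.span A G' ≠ ⊤ := by
    intro h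
    apply hspan
    have h1 := congrArg (Submodule.map (maximalIdeal A).subtype) h
    rw [Submodule.map_span, Submodule.map_top, Submodule.range_subtype] at h1
    have himg : (maximalIdeal A).subtype '' G' = G := by
      ext g
      constructor
      · rintro ⟨x, hx, rfl⟩
        exact hx
      · intro hg
        exact ⟨⟨g, hGm g hg⟩, hg, rfl⟩
    rw [himg] at h1
    exact h1
  have hU : Submodule.span (ResidueField A) ((maximalIdeal A).toCotangent '' G') ≠ ⊤ := by
    rwa [Ne, CotangentSpace.span_image_eq_top_iff]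
  obtain ⟨lam, hlam0, hlam⟩ := Submodule.exists_le_ker_of_lt_top _ (lt_top_iff_ne_top.mpr hU)
  have hloc := hA.isLocalHom
  let e : ResidueField A ≃+* ResidueField 𝒪 :=
    (RingEquiv.ofBijective (ResidueField.map (algebraMap 𝒪 A)) hA.residueFieldMap_bijective).symm
  have he : ∀ a : A, resk hA a = e (residue A a) := fun a => rfl
  let Λ : maximalIdeal A → ResidueField 𝒪 := fun m => e (lam ((maximalIdeal A).toCotangent m))
  have Λadd : ∀ m₁ m₂, Λ (m₁ + m₂) = Λ m₁ + Λ m₂ := by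
    intro m₁ m₂
    simp only [Λ, map_add]
  have Λsmul : ∀ (a : A) (m : maximalIdeal A), Λ (a • m) = resk hA a * Λ m := by
    intro a m
    show e (lam ((maximalIdeal A).toCotangent (a • m))) = resk hA a * e (lam _)
    rw [he, ← map_mul]
    congr 1
    rw [map_smul, ← algebraMap_smul (ResidueField A) a ((maximalIdeal A).toCotangent m), map_smul,
      smul_eq_mul]
    rfl
  have ΛG : ∀ m : maximalIdeal A, (m : A) ∈ G → Λ m = 0 := by
    intro m hm
    have h1 : (maximalIdeal A).toCotangent m ∈ LinearMap.ker lam :=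
      hlam (Submodule.subset_span ⟨m, hm, rfl⟩)
    show e (lam _) = 0
    rw [LinearMap.mem_ker.mp h1, map_zero]
  choose r hr using hA.exists_sub_mem
  let D : A → ResidueField 𝒪 := fun a => Λ ⟨a - algebraMap 𝒪 A (r a), hr a⟩
  have key : ∀ (a : A) (t : 𝒪) (m : maximalIdeal A), (m : A) = a - algebraMap 𝒪 A t →
      D a = Λ m := by
    intro a t m hm
    have hmem : algebraMap 𝒪 A (r a - t) ∈ maximalIdeal A := by
      have h1 : algebraMap 𝒪 A (r a - t) = (a - algebraMap 𝒪 A t) - (a - algebraMap 𝒪 A (r a)) := by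
        rw [map_sub]; ring
      rw [h1, ← hm]
      exact Ideal.sub_mem _ m.2 (hr a)
    have hrt : r a - t ∈ maximalIdeal 𝒪 := hA.algebraMap_mem_iff.mp hmem
    have h0 : Λ ⟨algebraMap 𝒪 A (r a - t), hmem⟩ = 0 := ΛG _ (Or.inr ⟨_, hrt, rfl⟩)
    have h2 : m = ⟨a - algebraMap 𝒪 A (r a), hr a⟩ + ⟨algebraMap 𝒪 A (r a - t), hmem⟩ := by
      apply Subtype.ext
      show (m : A) = (a - algebraMap 𝒪 A (r a)) + algebraMap 𝒪 A (r a - t)
      rw [hm, map_sub]; ring
    show Λ _ = Λ m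
    rw [h2, Λadd, h0, add_zero]
  refine ⟨D, ?_, ?_, ?_, ?_, ?_⟩
  · intro a b
    have h1 := key (a + b) (r a + r b)
      (⟨a - algebraMap 𝒪 A (r a), hr a⟩ + ⟨b - algebraMap 𝒪 A (r b), hr b⟩) (by
        show (a - algebraMap 𝒪 A (r a)) + (b - algebraMap 𝒪 A (r b)) = _
        rw [map_add]; ring)
    rw [h1, Λadd]
  · intro a b
    have h1 := key (a * b) (r a * r b)
      ((a - algebraMap 𝒪 A (r a)) • (⟨b - algebraMap 𝒪 A (r b), hr b⟩ : maximalIdeal A) +
        (algebraMap 𝒪 A (r a)) • (⟨b - algebraMap 𝒪 A (r b), hr b⟩ : maximalIdeal A) +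
        (algebraMap 𝒪 A (r b)) • (⟨a - algebraMap 𝒪 A (r a), hr a⟩ : maximalIdeal A)) (by
        show (a - algebraMap 𝒪 A (r a)) * (b - algebraMap 𝒪 A (r b)) +
          algebraMap 𝒪 A (r a) * (b - algebraMap 𝒪 A (r b)) +
          algebraMap 𝒪 A (r b) * (a - algebraMap 𝒪 A (r a)) = _
        rw [map_mul]; ring)
    have h2 : resk hA (a - algebraMap 𝒪 A (r a)) = 0 := (resk_eq_zero_iff hA _).mpr (hr a)
    have h3 : resk hA (algebraMap 𝒪 A (r a)) = resk hA a := by
      rw [map_sub, sub_eq_zero] at h2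
      exact h2.symm
    have h4 : resk hA (b - algebraMap 𝒪 A (r b)) = 0 := (resk_eq_zero_iff hA _).mpr (hr b)
    have h5 : resk hA (algebraMap 𝒪 A (r b)) = resk hA b := by
      rw [map_sub, sub_eq_zero] at h4
      exact h4.symm
    rw [h1, Λadd, Λadd, Λsmul, Λsmul, Λsmul, h2, zero_mul, zero_add, h3, h5]
  · intro t
    have h1 := key (algebraMap 𝒪 A t) t 0 (by simp)
    rw [h1]
    have := Λadd 0 0
    rw [add_zero] at this
    exact left_eq_add.mp this
  · intro a ha
    have h1 := key a 0 ⟨a, hs a ha⟩ (by simp)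
    rw [h1]
    exact ΛG _ (Or.inl ha)
  · obtain ⟨v, hv⟩ : ∃ v, lam v ≠ 0 := by
      by_contra h
      simp only [not_exists, not_not] at h
      exact hlam0 (LinearMap.ext h)
    obtain ⟨m, rfl⟩ := (maximalIdeal A).toCotangent_surjective v
    refine ⟨m, ?_⟩
    rw [key m 0 m (by simp)]
    show e (lam _) ≠ 0
    rw [Ne, map_eq_zero_iff e e.injective]
    exact hv

end Tangent

section Main

open GaloisRep

variable {𝒪 : Type} [CommRing 𝒪] [IsLocalRing 𝒪] [Finite (ResidueField 𝒪)]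
variable {X : Type}
variable (F : ∀ (A : Type) [CommRing A] [IsLocalRing A] [Algebra 𝒪 A], Set (X → A))
variable (f₀ : X → 𝒪)

/-- `T` separates the elements of `F(k[ε])`. -/
def Separates (T : Finset X) : Prop :=
  ∀ f ∈ @F (DualNumber (ResidueField 𝒪)) _ _ (dualNumberAlgebra 𝒪),
    ∀ g ∈ @F (DualNumber (ResidueField 𝒪)) _ _ (dualNumberAlgebra 𝒪),
      (∀ c ∈ T, f c = g c) → f = g

omit [Finite (ResidueField 𝒪)] in
/-- (P1) A finite set of coordinates separating the finitely many elements of `F(k[ε])`. -/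
theorem exists_separates
    (hfin : (@F (DualNumber (ResidueField 𝒪)) _ _ (dualNumberAlgebra 𝒪)).Finite) :
    ∃ T : Finset X, Separates F T := by
  classical
  let S := hfin.toFinset
  let pick : (X → DualNumber (ResidueField 𝒪)) × (X → DualNumber (ResidueField 𝒪)) → Finset X :=
    fun p => if h : ∃ x, p.1 x ≠ p.2 x then {h.choose} else ∅
  refine ⟨(S ×ˢ S).biUnion pick, fun f hf g hg h => ?_⟩
  by_contra hne
  have hex : ∃ x, f x ≠ g x := by
    by_contra h'
    simp only [not_exists, not_not] at h'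
    exact hne (funext h')
  have hmem : hex.choose ∈ (S ×ˢ S).biUnion pick := by
    rw [Finset.mem_biUnion]
    refine ⟨(f, g), ?_, ?_⟩
    · rw [Finset.mem_product]
      exact ⟨hfin.mem_toFinset.mpr hf, hfin.mem_toFinset.mpr hg⟩
    · show hex.choose ∈ pick (f, g)
      simp only [pick, dif_pos hex, Finset.mem_singleton]
  exact hex.choose_spec (h _ hmem)

variable {F f₀}

/-- (P2) **Key Lemma A.**  If `T` separates `F(k[ε])`, then for every artinian test algebra `A`
and `f ∈ F A`, all values of `f` lie in the `𝒪`-subalgebra generated by `f(T)`. -/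
theorem mem_adjoin_image
    (hres : ∀ (A : Type) [CommRing A] [IsLocalRing A] [Algebra 𝒪 A] (f : X → A), f ∈ F A →
      ∀ x, f x - algebraMap 𝒪 A (f₀ x) ∈ maximalIdeal A)
    (hmap : ∀ (A B : Type) [CommRing A] [IsLocalRing A] [Algebra 𝒪 A]
      [CommRing B] [IsLocalRing B] [Algebra 𝒪 B],
      IsArtinianTestAlgebra 𝒪 A → IsArtinianTestAlgebra 𝒪 B →
      ∀ (φ : A →ₐ[𝒪] B) (f : X → A), f ∈ F A → (φ ∘ f) ∈ F B)
    (hinj : ∀ (A B : Type) [CommRing A] [IsLocalRing A] [Algebra 𝒪 A]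
      [CommRing B] [IsLocalRing B] [Algebra 𝒪 B],
      IsArtinianTestAlgebra 𝒪 A → IsArtinianTestAlgebra 𝒪 B →
      ∀ (φ : A →ₐ[𝒪] B), Injective φ → ∀ (f : X → A), (φ ∘ f) ∈ F B → f ∈ F A)
    {T : Finset X} (hT : Separates F T)
    (A : Type) [CommRing A] [IsLocalRing A] [Algebra 𝒪 A] (hA : IsArtinianTestAlgebra 𝒪 A)
    (f : X → A) (hf : f ∈ F A) (x : X) :
    f x ∈ Algebra.adjoin 𝒪 (f '' (T : Set X)) := by
  classical
  have hAt : IsTestAlgebra 𝒪 A := .of_artinian hA
  haveI := hA.isArtinian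
  haveI : Finite A := hAt.finite_of_isArtinianRing
  let A'' : Subalgebra 𝒪 A := Algebra.adjoin 𝒪 (Set.range f)
  obtain ⟨hloc, -⟩ := isLocalRing_of_injective (A''.val : A'' →+* A) Subtype.val_injective
  haveI := hloc
  have hA''t : IsTestAlgebra 𝒪 A'' := hAt.of_injective A''.val Subtype.val_injective
  haveI : Finite A'' := Finite.of_injective _ Subtype.val_injective
  have hA'' : IsArtinianTestAlgebra 𝒪 A'' := hA''t.artinian
  let f'' : X → A'' := fun x => ⟨f x, Algebra.subset_adjoin (Set.mem_range_self x)⟩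
  have hf'' : f'' ∈ F A'' := hinj A'' A hA'' hA A''.val Subtype.val_injective f'' hf
  let s : Set A'' := (fun c => f'' c - algebraMap 𝒪 A'' (f₀ c)) '' (T : Set X)
  have hs : ∀ a ∈ s, a ∈ maximalIdeal A'' := by
    rintro _ ⟨c, _, rfl⟩
    exact hres A'' f'' hf'' c
  by_cases hB : Algebra.adjoin 𝒪 s = ⊤
  · have h1 : f'' x ∈ Algebra.adjoin 𝒪 s := hB ▸ Algebra.mem_top
    have h2 : Algebra.adjoin 𝒪 s ≤ Algebra.adjoin 𝒪 (f'' '' (T : Set X)) := by
      refine Algebra.adjoin_le ?_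
      rintro _ ⟨c, hc, rfl⟩
      exact Subalgebra.sub_mem _ (Algebra.subset_adjoin ⟨c, hc, rfl⟩)
        (Subalgebra.algebraMap_mem _ _)
    have h4 : A''.val (f'' x) ∈ (Algebra.adjoin 𝒪 (f'' '' (T : Set X))).map A''.val :=
      ⟨_, h2 h1, rfl⟩
    rw [AlgHom.map_adjoin, ← Set.image_comp] at h4
    exact h4
  · exfalso
    obtain ⟨D, hadd, hmul, halg, hDs, a, ha⟩ :=
      exists_derivation_of_adjoin_ne_top hA''t s hs hB
    letI := dualNumberAlgebra 𝒪
    let φD := dualNumberHom (resk hA''t) D hadd hmul halg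
    let φ0 := dualNumberHom (resk hA''t) (fun _ => 0) (by simp) (by simp) (by simp)
    have hk' := isArtinianTestAlgebra_dualNumber 𝒪
    have hgD : (φD ∘ f'') ∈ F (DualNumber (ResidueField 𝒪)) := hmap A'' _ hA'' hk' φD f'' hf''
    have hg0 : (φ0 ∘ f'') ∈ F (DualNumber (ResidueField 𝒪)) := hmap A'' _ hA'' hk' φ0 f'' hf''
    have heq : φD ∘ f'' = φ0 ∘ f'' := by
      refine hT _ hgD _ hg0 fun c hc => ?_
      show φD (f'' c) = φ0 (f'' c)
      rw [dualNumberHom_apply, dualNumberHom_apply]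
      have h0 : D (f'' c) = 0 := by
        have h1 := hDs _ ⟨c, hc, rfl⟩
        have h2 := hadd (f'' c - algebraMap 𝒪 A'' (f₀ c)) (algebraMap 𝒪 A'' (f₀ c))
        rw [sub_add_cancel, h1, halg, add_zero] at h2
        exact h2
      rw [h0]
    have hDf : ∀ x, D (f'' x) = 0 := by
      intro x
      have h1 := congrFun heq x
      simp only [comp_apply] at h1
      rw [dualNumberHom_apply, dualNumberHom_apply] at h1
      have h2 := congrArg TrivSqZeroExt.snd h1
      simpa using h2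
    let K : Subalgebra 𝒪 A'' :=
      { carrier := {a | D a = 0}
        mul_mem' := fun {a b} ha hb => by
          show D (a * b) = 0
          rw [hmul, show D a = 0 from ha, show D b = 0 from hb, mul_zero, mul_zero, add_zero]
        add_mem' := fun {a b} ha hb => by
          show D (a + b) = 0
          rw [hadd, show D a = 0 from ha, show D b = 0 from hb, add_zero]
        algebraMap_mem' := fun r => halg r }
    have hK : K = ⊤ := by
      rw [eq_top_iff, ← Algebra.adjoin_adjoin_coe_preimage (R := 𝒪) (s := Set.range f)]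
      refine Algebra.adjoin_le ?_
      rintro ⟨b, hb⟩ ⟨x, hx⟩
      have : (⟨b, hb⟩ : A'') = f'' x := Subtype.ext hx.symm
      rw [this]
      exact hDf x
    exact ha (show a ∈ K from hK ▸ Algebra.mem_top)

/-- (P3) **Key Lemma B.**  If `T` separates `F(k[ε])`, then an element of `F A` (`A` an artinian
test algebra) is determined by its restriction to `T`. -/
theorem eq_of_eqOn
    (hres : ∀ (A : Type) [CommRing A] [IsLocalRing A] [Algebra 𝒪 A] (f : X → A), f ∈ F A →
      ∀ x, f x - algebraMap 𝒪 A (f₀ x) ∈ maximalIdeal A)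
    (hmap : ∀ (A B : Type) [CommRing A] [IsLocalRing A] [Algebra 𝒪 A]
      [CommRing B] [IsLocalRing B] [Algebra 𝒪 B],
      IsArtinianTestAlgebra 𝒪 A → IsArtinianTestAlgebra 𝒪 B →
      ∀ (φ : A →ₐ[𝒪] B) (f : X → A), f ∈ F A → (φ ∘ f) ∈ F B)
    (hinj : ∀ (A B : Type) [CommRing A] [IsLocalRing A] [Algebra 𝒪 A]
      [CommRing B] [IsLocalRing B] [Algebra 𝒪 B],
      IsArtinianTestAlgebra 𝒪 A → IsArtinianTestAlgebra 𝒪 B →
      ∀ (φ : A →ₐ[𝒪] B), Injective φ → ∀ (f : X → A), (φ ∘ f) ∈ F B → f ∈ F A)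
    (hfib : ∀ (A B C P : Type) [CommRing A] [IsLocalRing A] [Algebra 𝒪 A]
      [CommRing B] [IsLocalRing B] [Algebra 𝒪 B] [CommRing C] [IsLocalRing C] [Algebra 𝒪 C]
      [CommRing P] [IsLocalRing P] [Algebra 𝒪 P],
      IsArtinianTestAlgebra 𝒪 A → IsArtinianTestAlgebra 𝒪 B → IsArtinianTestAlgebra 𝒪 C →
      IsArtinianTestAlgebra 𝒪 P →
      ∀ (f : A →ₐ[𝒪] C) (g : B →ₐ[𝒪] C) (pA : P →ₐ[𝒪] A) (pB : P →ₐ[𝒪] B),
      f.comp pA = g.comp pB →
      Injective (fun x => (pA x, pB x)) →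
      (∀ a b, f a = g b → ∃ x, pA x = a ∧ pB x = b) →
      ∀ (h : X → P), (pA ∘ h) ∈ F A → (pB ∘ h) ∈ F B → h ∈ F P)
    {T : Finset X} (hT : Separates F T)
    (A : Type) [CommRing A] [IsLocalRing A] [Algebra 𝒪 A] (hA : IsArtinianTestAlgebra 𝒪 A)
    (f : X → A) (hf : f ∈ F A) (g : X → A) (hg : g ∈ F A) (h : ∀ c ∈ T, f c = g c) :
    f = g := by
  have hAt : IsTestAlgebra 𝒪 A := .of_artinian hA
  haveI := hA.isArtinian
  haveI : Finite A := hAt.finite_of_isArtinianRing
  have hP : IsArtinianTestAlgebra 𝒪 (fibreProd hAt hAt) := fibreProd.isArtinianTestAlgebra hAt hAt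
  have hmem : ∀ x, (f x, g x) ∈ fibreProd hAt hAt := by
    intro x
    rw [mem_fibreProd]
    show resk hAt (f x) = resk hAt (g x)
    rw [(resk_eq_iff hAt (f x) (f₀ x)).mpr (hres A f hf x),
      (resk_eq_iff hAt (g x) (f₀ x)).mpr (hres A g hg x)]
  let h' : X → fibreProd hAt hAt := fun x => ⟨(f x, g x), hmem x⟩
  have hh' : h' ∈ F (fibreProd hAt hAt) :=
    hfib A A (ResidueField 𝒪) (fibreProd hAt hAt) hA hA (isArtinianTestAlgebra_residueField 𝒪) hP
      (resk hAt) (resk hAt) (fibreProd.fst hAt hAt) (fibreProd.snd hAt hAt)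
      (fibreProd.comp_eq hAt hAt) (fibreProd.injective hAt hAt)
      (fibreProd.exists_of_resk_eq hAt hAt) h' hf hg
  funext x
  have hx := mem_adjoin_image hres hmap hinj hT (fibreProd hAt hAt) hP h' hh' x
  have hle : Algebra.adjoin 𝒪 (h' '' (T : Set X)) ≤
      AlgHom.equalizer (fibreProd.fst hAt hAt) (fibreProd.snd hAt hAt) := by
    refine Algebra.adjoin_le ?_
    rintro _ ⟨c, hc, rfl⟩
    exact h c hc
  exact hle hx

/-- (P1)+(P2)+(P3) packaged: there is a finite set `T` of coordinates such that, over every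
artinian test algebra `A`, the values of any `f ∈ F A` lie in `𝒪[f(T)]` and `f` is determined by
`f|T`. -/
theorem exists_finset_key
    (hres : ∀ (A : Type) [CommRing A] [IsLocalRing A] [Algebra 𝒪 A] (f : X → A), f ∈ F A →
      ∀ x, f x - algebraMap 𝒪 A (f₀ x) ∈ maximalIdeal A)
    (hmap : ∀ (A B : Type) [CommRing A] [IsLocalRing A] [Algebra 𝒪 A]
      [CommRing B] [IsLocalRing B] [Algebra 𝒪 B],
      IsArtinianTestAlgebra 𝒪 A → IsArtinianTestAlgebra 𝒪 B →
      ∀ (φ : A →ₐ[𝒪] B) (f : X → A), f ∈ F A → (φ ∘ f) ∈ F B)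
    (hinj : ∀ (A B : Type) [CommRing A] [IsLocalRing A] [Algebra 𝒪 A]
      [CommRing B] [IsLocalRing B] [Algebra 𝒪 B],
      IsArtinianTestAlgebra 𝒪 A → IsArtinianTestAlgebra 𝒪 B →
      ∀ (φ : A →ₐ[𝒪] B), Injective φ → ∀ (f : X → A), (φ ∘ f) ∈ F B → f ∈ F A)
    (hfib : ∀ (A B C P : Type) [CommRing A] [IsLocalRing A] [Algebra 𝒪 A]
      [CommRing B] [IsLocalRing B] [Algebra 𝒪 B] [CommRing C] [IsLocalRing C] [Algebra 𝒪 C]
      [CommRing P] [IsLocalRing P] [Algebra 𝒪 P],
      IsArtinianTestAlgebra 𝒪 A → IsArtinianTestAlgebra 𝒪 B → IsArtinianTestAlgebra 𝒪 C →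
      IsArtinianTestAlgebra 𝒪 P →
      ∀ (f : A →ₐ[𝒪] C) (g : B →ₐ[𝒪] C) (pA : P →ₐ[𝒪] A) (pB : P →ₐ[𝒪] B),
      f.comp pA = g.comp pB →
      Injective (fun x => (pA x, pB x)) →
      (∀ a b, f a = g b → ∃ x, pA x = a ∧ pB x = b) →
      ∀ (h : X → P), (pA ∘ h) ∈ F A → (pB ∘ h) ∈ F B → h ∈ F P)
    (hfin : (@F (DualNumber (ResidueField 𝒪)) _ _ (dualNumberAlgebra 𝒪)).Finite) :
    ∃ T : Finset X,
      (∀ (A : Type) [CommRing A] [IsLocalRing A] [Algebra 𝒪 A], IsArtinianTestAlgebra 𝒪 A →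
        ∀ f ∈ F A, ∀ x, f x ∈ Algebra.adjoin 𝒪 (f '' (T : Set X))) ∧
      (∀ (A : Type) [CommRing A] [IsLocalRing A] [Algebra 𝒪 A], IsArtinianTestAlgebra 𝒪 A →
        ∀ f ∈ F A, ∀ g ∈ F A, (∀ c ∈ T, f c = g c) → f = g) := by
  obtain ⟨T, hT⟩ := exists_separates F hfin
  exact ⟨T, fun A _ _ _ hA f hf x => mem_adjoin_image hres hmap hinj hT A hA f hf x,
    fun A _ _ _ hA f hf g hg h => eq_of_eqOn hres hmap hinj hfib hT A hA f hf g hg h⟩

end Main

end Fermat.Agent.Lib.Deform.Key
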