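import Mathlib

set_option autoImplicit false

/-!
# `MvPowerSeries σ R` over a complete local ring is complete for its maximal ideal

Also: finite quotients, construction and uniqueness of algebra maps out of the power series ring.
-/

namespace Fermat.Agent.Lib.Deform

open IsLocalRing MvPowerSeries

section CoeffIdeal

variable {σ : Type*} {R : Type*} [CommRing R] [IsLocalRing R]

/-- The ideal of power series whose coefficient at a monomial of degree `j` lies in `𝔪 ^ (n - j)`. -/
def coeffIdeal (σ : Type*) (R : Type*) [CommRing R] [IsLocalRing R] (n : ℕ) :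
    Ideal (MvPowerSeries σ R) where
  carrier := {f | ∀ d : σ →₀ ℕ, coeff d f ∈ maximalIdeal R ^ (n - Finsupp.degree d)}
  add_mem' := by
    intro f g hf hg d
    rw [map_add]
    exact Ideal.add_mem _ (hf d) (hg d)
  zero_mem' := by
    intro d
    rw [map_zero]
    exact Ideal.zero_mem _
  smul_mem' := by
    classical
    intro g f hf d
    rw [smul_eq_mul, coeff_mul]
    refine Ideal.sum_mem _ fun p hp => ?_
    rw [Finset.HasAntidiagonal.mem_antidiagonal] at hp
    have hdeg : Finsupp.degree p.2 ≤ Finsupp.degree d := by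
      rw [← hp, map_add]
      exact Nat.le_add_left _ _
    exact Ideal.mul_mem_left _ _
      (Ideal.pow_le_pow_right (Nat.sub_le_sub_left hdeg n) (hf p.2))

theorem mem_coeffIdeal_iff {n : ℕ} {f : MvPowerSeries σ R} :
    f ∈ coeffIdeal σ R n ↔
      ∀ d : σ →₀ ℕ, coeff d f ∈ maximalIdeal R ^ (n - Finsupp.degree d) := Iff.rfl

theorem coeffIdeal_zero : coeffIdeal σ R 0 = ⊤ := by
  rw [Ideal.eq_top_iff_one]
  intro d
  simp

theorem coeffIdeal_mul_le (m n : ℕ) :
    coeffIdeal σ R m * coeffIdeal σ R n ≤ coeffIdeal σ R (m + n) := by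
  classical
  rw [Ideal.mul_le]
  intro f hf g hg d
  rw [coeff_mul]
  refine Ideal.sum_mem _ fun p hp => ?_
  rw [Finset.HasAntidiagonal.mem_antidiagonal] at hp
  have hdeg : Finsupp.degree p.1 + Finsupp.degree p.2 = Finsupp.degree d := by
    rw [← hp, map_add]
  have h1 := hf p.1
  have h2 := hg p.2
  have h3 : coeff p.1 f * coeff p.2 g ∈
      maximalIdeal R ^ ((m - Finsupp.degree p.1) + (n - Finsupp.degree p.2)) := by
    rw [pow_add]
    exact Ideal.mul_mem_mul h1 h2
  refine Ideal.pow_le_pow_right ?_ h3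
  omega

theorem maximalIdeal_le_coeffIdeal_one :
    maximalIdeal (MvPowerSeries σ R) ≤ coeffIdeal σ R 1 := by
  intro f hf d
  by_cases hd : d = 0
  · subst hd
    rw [map_zero, Nat.sub_zero, pow_one, coeff_zero_eq_constantCoeff_apply]
    rw [mem_maximalIdeal, mem_nonunits_iff] at hf ⊢
    intro h
    exact hf (MvPowerSeries.isUnit_iff_constantCoeff.mpr h)
  · have : 1 - Finsupp.degree d = 0 := by
      have : Finsupp.degree d ≠ 0 := by
        intro h
        exact hd ((Finsupp.degree_eq_zero_iff d).mp h)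
      omega
    rw [this, pow_zero, Ideal.one_eq_top]
    exact Submodule.mem_top

theorem maximalIdeal_pow_le_coeffIdeal (n : ℕ) :
    maximalIdeal (MvPowerSeries σ R) ^ n ≤ coeffIdeal σ R n := by
  induction n with
  | zero => rw [coeffIdeal_zero]; exact le_top
  | succ n ih =>
    rw [pow_succ]
    exact (Ideal.mul_mono ih maximalIdeal_le_coeffIdeal_one).trans (coeffIdeal_mul_le n 1)

end CoeffIdeal

section Tail

variable {σ : Type*} [Finite σ] {R : Type*} [CommRing R]

theorem mem_span_X_pow_of_coeff_eq_zero {n : ℕ} {g : MvPowerSeries σ R}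
    (hg : ∀ d : σ →₀ ℕ, Finsupp.degree d < n → coeff d g = 0) :
    g ∈ (Ideal.span (Set.range (X : σ → MvPowerSeries σ R))) ^ n := by
  set P := MvPolynomial σ R
  set I := MvPolynomial.idealOfVars σ R
  set e := toAdicCompletionAlgEquiv σ R
  have h1 : (e g).val n = 0 := by
    show ((toAdicCompletion σ R) g).val n = 0
    rw [toAdicCompletion_apply_eq_mk_truncTotal, Ideal.Quotient.eq_zero_iff_mem, smul_eq_mul,
      Ideal.mul_top, MvPolynomial.mem_pow_idealOfVars_iff']
    intro x hx
    rw [coeff_truncTotal _ hx, hg x hx]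
  have h2 : e g ∈ LinearMap.ker (AdicCompletion.eval I P n) := by
    rw [LinearMap.mem_ker, AdicCompletion.eval_apply]
    exact h1
  rw [← AdicCompletion.pow_smul_top_eq_ker_eval (MvPolynomial.idealOfVars_fg σ R),
    Ideal.smul_top_eq_map] at h2
  have h3 : e g ∈ Ideal.map (algebraMap P (AdicCompletion I P)) (I ^ n) := h2
  have h4 : e.symm (e g) ∈ Ideal.map (e.symm : AdicCompletion I P →+* MvPowerSeries σ R)
      (Ideal.map (algebraMap P (AdicCompletion I P)) (I ^ n)) :=
    Ideal.mem_map_of_mem _ h3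
  rw [AlgEquiv.symm_apply_apply, Ideal.map_map] at h4
  have h5 : ((e.symm : AdicCompletion I P →+* MvPowerSeries σ R).comp
      (algebraMap P (AdicCompletion I P))) = algebraMap P (MvPowerSeries σ R) := by
    refine RingHom.ext fun p => ?_
    show e.symm (algebraMap P (AdicCompletion I P) p) = algebraMap P (MvPowerSeries σ R) p
    rw [AlgEquiv.commutes]
  rw [h5, Ideal.map_pow] at h4
  have h6 : Ideal.map (algebraMap P (MvPowerSeries σ R)) I =
      Ideal.span (Set.range (X : σ → MvPowerSeries σ R)) := by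
    show Ideal.map _ (Ideal.span _) = _
    rw [Ideal.map_span, ← Set.range_comp]
    congr 2
    funext s
    show ((MvPolynomial.X s : MvPolynomial σ R) : MvPowerSeries σ R) = X s
    exact MvPolynomial.coe_X s
  rw [h6] at h4
  exact h4

end Tail

section ClaimB

variable {σ : Type*} [Finite σ] {R : Type*} [CommRing R] [IsLocalRing R]

omit [Finite σ] in
theorem X_mem_maximalIdeal (s : σ) : (X s : MvPowerSeries σ R) ∈ maximalIdeal (MvPowerSeries σ R) := by
  rw [mem_maximalIdeal, mem_nonunits_iff, MvPowerSeries.isUnit_iff_constantCoeff]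
  rw [constantCoeff_X]
  exact not_isUnit_zero

omit [Finite σ] in
theorem C_mem_maximalIdeal_pow {a : R} {j : ℕ} (ha : a ∈ maximalIdeal R ^ j) :
    (C a : MvPowerSeries σ R) ∈ maximalIdeal (MvPowerSeries σ R) ^ j := by
  have h : Ideal.map (C : R →+* MvPowerSeries σ R) (maximalIdeal R) ≤
      maximalIdeal (MvPowerSeries σ R) := by
    rw [Ideal.map_le_iff_le_comap]
    intro x hx
    rw [Ideal.mem_comap, mem_maximalIdeal, mem_nonunits_iff,
      MvPowerSeries.isUnit_iff_constantCoeff, constantCoeff_C]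
    exact hx
  have h2 := Ideal.mem_map_of_mem (C : R →+* MvPowerSeries σ R) ha
  rw [Ideal.map_pow] at h2
  exact Ideal.pow_right_mono h j h2

omit [Finite σ] in
theorem monomial_mem_maximalIdeal_pow (d : σ →₀ ℕ) {a : R} {j : ℕ} (ha : a ∈ maximalIdeal R ^ j) :
    (monomial d a : MvPowerSeries σ R) ∈ maximalIdeal (MvPowerSeries σ R) ^ (j + Finsupp.degree d) := by
  rw [MvPowerSeries.monomial_eq', pow_add]
  refine Ideal.mul_mem_mul (C_mem_maximalIdeal_pow ha) ?_
  rw [Finsupp.degree_apply, ← Finset.prod_pow_eq_pow_sum, Finsupp.prod]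
  exact Ideal.prod_mem_prod fun s _ => Ideal.pow_mem_pow (X_mem_maximalIdeal s) _

omit [Finite σ] in
theorem coe_mem_maximalIdeal_pow {n : ℕ} (p : MvPolynomial σ R)
    (hp : ∀ d, MvPolynomial.coeff d p ∈ maximalIdeal R ^ (n - Finsupp.degree d)) :
    (p : MvPowerSeries σ R) ∈ maximalIdeal (MvPowerSeries σ R) ^ n := by
  rw [p.as_sum]
  have : ((∑ v ∈ p.support, (MvPolynomial.monomial v) (MvPolynomial.coeff v p) :
      MvPolynomial σ R) : MvPowerSeries σ R) =
      ∑ v ∈ p.support, (monomial v (MvPolynomial.coeff v p) : MvPowerSeries σ R) := by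
    rw [← MvPolynomial.coeToMvPowerSeries.ringHom_apply, map_sum]
    refine Finset.sum_congr rfl fun v _ => ?_
    rw [MvPolynomial.coeToMvPowerSeries.ringHom_apply, MvPolynomial.coe_monomial]
  rw [this]
  refine Ideal.sum_mem _ fun v _ => ?_
  exact Ideal.pow_le_pow_right (by omega) (monomial_mem_maximalIdeal_pow v (hp v))

omit [Finite σ] in
theorem span_X_le_maximalIdeal :
    Ideal.span (Set.range (X : σ → MvPowerSeries σ R)) ≤ maximalIdeal (MvPowerSeries σ R) := by
  rw [Ideal.span_le]
  rintro _ ⟨s, rfl⟩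
  exact X_mem_maximalIdeal s


theorem coeffIdeal_le_maximalIdeal_pow (n : ℕ) :
    coeffIdeal σ R n ≤ maximalIdeal (MvPowerSeries σ R) ^ n := by
  intro f hf
  have hsplit : f = (truncTotal n f : MvPowerSeries σ R) + (f - truncTotal n f) := by ring
  rw [hsplit]
  refine Ideal.add_mem _ (coe_mem_maximalIdeal_pow _ ?_) ?_
  · intro d
    rw [coeff_truncTotal_eq_ite]
    split_ifs
    · exact hf d
    · exact zero_mem _
  · refine Ideal.pow_right_mono span_X_le_maximalIdeal n (mem_span_X_pow_of_coeff_eq_zero ?_)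
    intro d hd
    rw [map_sub, MvPolynomial.coeff_coe, coeff_truncTotal _ hd, sub_self]

theorem maximalIdeal_pow_eq_coeffIdeal (n : ℕ) :
    maximalIdeal (MvPowerSeries σ R) ^ n = coeffIdeal σ R n :=
  le_antisymm (maximalIdeal_pow_le_coeffIdeal n) (coeffIdeal_le_maximalIdeal_pow n)

theorem mem_maximalIdeal_pow_iff {n : ℕ} {f : MvPowerSeries σ R} :
    f ∈ maximalIdeal (MvPowerSeries σ R) ^ n ↔
      ∀ d : σ →₀ ℕ, coeff d f ∈ maximalIdeal R ^ (n - Finsupp.degree d) := by
  rw [maximalIdeal_pow_eq_coeffIdeal]; rfl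

end ClaimB

section Complete

variable {σ : Type*} [Finite σ] {R : Type*} [CommRing R] [IsLocalRing R]

instance isHausdorff_mvPowerSeries [IsHausdorff (maximalIdeal R) R] :
    IsHausdorff (maximalIdeal (MvPowerSeries σ R)) (MvPowerSeries σ R) := by
  refine ⟨fun f hf => ?_⟩
  ext d
  rw [map_zero]
  refine IsHausdorff.haus' (I := maximalIdeal R) _ fun n => ?_
  have h := hf (n + Finsupp.degree d)
  rw [SModEq.sub_mem, sub_zero, smul_eq_mul, Ideal.mul_top, mem_maximalIdeal_pow_iff] at h
  rw [SModEq.sub_mem, sub_zero, smul_eq_mul, Ideal.mul_top]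
  simpa using h d

instance isPrecomplete_mvPowerSeries [IsPrecomplete (maximalIdeal R) R] :
    IsPrecomplete (maximalIdeal (MvPowerSeries σ R)) (MvPowerSeries σ R) := by
  refine ⟨fun f hf => ?_⟩
  -- the coefficient sequences, shifted by the degree, are Cauchy in `R`
  have hc : ∀ d : σ →₀ ℕ, ∃ c : R, ∀ n, coeff d (f (n + Finsupp.degree d)) ≡ c
      [SMOD (maximalIdeal R ^ n • ⊤ : Submodule R R)] := by
    intro d
    refine IsPrecomplete.prec' (I := maximalIdeal R) (fun n => coeff d (f (n + Finsupp.degree d))) ?_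
    intro m n hmn
    have h := hf (m := m + Finsupp.degree d) (n := n + Finsupp.degree d) (by omega)
    rw [SModEq.sub_mem, smul_eq_mul, Ideal.mul_top, mem_maximalIdeal_pow_iff] at h
    rw [SModEq.sub_mem, smul_eq_mul, Ideal.mul_top]
    simpa using h d
  choose c hc using hc
  obtain ⟨g, hg⟩ : ∃ g : MvPowerSeries σ R, ∀ d, coeff d g = c d := ⟨fun d => c d, fun d => rfl⟩
  refine ⟨g, fun n => ?_⟩
  rw [SModEq.sub_mem, smul_eq_mul, Ideal.mul_top, mem_maximalIdeal_pow_iff]
  intro d
  by_cases hnd : n ≤ Finsupp.degree d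
  · rw [Nat.sub_eq_zero_of_le hnd, pow_zero, Ideal.one_eq_top]
    exact Submodule.mem_top
  · obtain ⟨m, rfl⟩ : ∃ m, n = m + Finsupp.degree d := ⟨n - Finsupp.degree d, by omega⟩
    have h := hc d m
    rw [SModEq.sub_mem, smul_eq_mul, Ideal.mul_top] at h
    rw [Nat.add_sub_cancel, map_sub, hg]
    exact h

instance isAdicComplete_mvPowerSeries [IsAdicComplete (maximalIdeal R) R] :
    IsAdicComplete (maximalIdeal (MvPowerSeries σ R)) (MvPowerSeries σ R) where

end Complete


section TestAlg

variable {σ : Type*} {R : Type*} [CommRing R] [IsLocalRing R]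

instance isLocalHom_algebraMap_mvPowerSeries :
    IsLocalHom (algebraMap R (MvPowerSeries σ R)) := by
  refine ⟨fun a ha => ?_⟩
  rw [MvPowerSeries.algebraMap_apply, Algebra.algebraMap_self, RingHom.id_apply,
    MvPowerSeries.isUnit_iff_constantCoeff, constantCoeff_C] at ha
  exact ha

theorem sub_C_constantCoeff_mem_maximalIdeal (f : MvPowerSeries σ R) :
    f - C (constantCoeff f) ∈ maximalIdeal (MvPowerSeries σ R) := by
  rw [mem_maximalIdeal, mem_nonunits_iff, MvPowerSeries.isUnit_iff_constantCoeff, map_sub,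
    constantCoeff_C, sub_self]
  exact not_isUnit_zero

theorem residue_comp_algebraMap_mvPowerSeries_surjective :
    Function.Surjective (residue (MvPowerSeries σ R) ∘ algebraMap R (MvPowerSeries σ R)) := by
  intro x
  obtain ⟨f, rfl⟩ := residue_surjective x
  refine ⟨constantCoeff f, ?_⟩
  rw [Function.comp_apply, MvPowerSeries.algebraMap_apply, Algebra.algebraMap_self,
    RingHom.id_apply]
  symm
  rw [← sub_eq_zero, ← map_sub, residue_eq_zero_iff]
  exact sub_C_constantCoeff_mem_maximalIdeal f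

instance finite_residueField_mvPowerSeries [Finite (ResidueField R)] :
    Finite (ResidueField (MvPowerSeries σ R)) := by
  refine Finite.of_surjective (ResidueField.map (algebraMap R (MvPowerSeries σ R))) ?_
  intro x
  obtain ⟨a, rfl⟩ := residue_comp_algebraMap_mvPowerSeries_surjective (σ := σ) (R := R) x
  exact ⟨residue R a, rfl⟩

theorem finite_quotient_maximalIdeal_pow [Finite σ] [IsNoetherianRing R] [Finite (ResidueField R)]
    (n : ℕ) : Finite (MvPowerSeries σ R ⧸ maximalIdeal (MvPowerSeries σ R) ^ n) := by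
  have : Finite (MvPowerSeries σ R ⧸ maximalIdeal (MvPowerSeries σ R)) :=
    finite_residueField_mvPowerSeries (σ := σ) (R := R)
  exact Ideal.finite_quotient_pow (IsNoetherian.noetherian _) n

end TestAlg

section Lift

variable {σ : Type*} [Finite σ] {R : Type*} [CommRing R]
variable {A : Type*} [CommRing A] [Algebra R A] (I : Ideal A)

omit [Finite σ] in
theorem aeval_mem_pow_of_mem_idealOfVars_pow {a : σ → A} (ha : ∀ s, a s ∈ I) {n : ℕ}
    {p : MvPolynomial σ R} (hp : p ∈ MvPolynomial.idealOfVars σ R ^ n) :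
    MvPolynomial.aeval a p ∈ I ^ n := by
  have h1 : Ideal.map (MvPolynomial.aeval a : MvPolynomial σ R →ₐ[R] A)
      (MvPolynomial.idealOfVars σ R) ≤ I := by
    rw [MvPolynomial.idealOfVars, Ideal.map_span, Ideal.span_le]
    rintro _ ⟨_, ⟨s, rfl⟩, rfl⟩
    simpa using ha s
  have h2 := Ideal.mem_map_of_mem (MvPolynomial.aeval a : MvPolynomial σ R →ₐ[R] A) hp
  rw [Ideal.map_pow] at h2
  exact Ideal.pow_right_mono h1 n h2

/-- The truncated evaluation map `S → A ⧸ I ^ n`. -/
noncomputable def evalQuot (a : σ → A) (ha : ∀ s, a s ∈ I) (n : ℕ) :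
    MvPowerSeries σ R →ₐ[R] A ⧸ I ^ n :=
  (Ideal.Quotient.liftₐ (MvPolynomial.idealOfVars σ R ^ n)
    ((Ideal.Quotient.mkₐ R (I ^ n)).comp (MvPolynomial.aeval a))
    (fun p hp => by
      rw [AlgHom.comp_apply, Ideal.Quotient.mkₐ_eq_mk, Ideal.Quotient.eq_zero_iff_mem]
      exact aeval_mem_pow_of_mem_idealOfVars_pow I ha hp)).comp
  ((truncTotalAlgHom σ R n).restrictScalars R)

theorem evalQuot_apply (a : σ → A) (ha : ∀ s, a s ∈ I) (n : ℕ) (f : MvPowerSeries σ R) :
    evalQuot I a ha n f = Ideal.Quotient.mk (I ^ n) (MvPolynomial.aeval a (truncTotal n f)) := by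
  rfl

theorem eq_of_forall_sub_mem_pow [IsHausdorff I A] {x y : A} (h : ∀ n, x - y ∈ I ^ n) : x = y := by
  rw [← sub_eq_zero]
  refine IsHausdorff.haus' (I := I) _ fun n => ?_
  rw [SModEq.sub_mem, sub_zero, smul_eq_mul, Ideal.mul_top]
  exact h n

theorem evalQuot_compat (a : σ → A) (ha : ∀ s, a s ∈ I) {m n : ℕ} (hle : m ≤ n) :
    (Ideal.Quotient.factorₐ R (Ideal.pow_le_pow_right hle)).comp (evalQuot (R := R) I a ha n) =
      evalQuot I a ha m := by
  refine AlgHom.ext fun f => ?_
  rw [AlgHom.comp_apply, evalQuot_apply, evalQuot_apply, Ideal.Quotient.factorₐ_apply_mk,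
    Ideal.Quotient.eq, ← map_sub]
  exact aeval_mem_pow_of_mem_idealOfVars_pow I ha
    (truncTotal_sub_truncTotal_mem_pow_idealOfVars hle le_rfl f)

/-- Evaluation of power series at a tuple of elements of `I`, for `A` complete w.r.t. `I`. -/
noncomputable def evalHom [IsAdicComplete I A] (a : σ → A) (ha : ∀ s, a s ∈ I) :
    MvPowerSeries σ R →ₐ[R] A :=
  IsAdicComplete.liftAlgHom I (evalQuot I a ha) (fun hle => evalQuot_compat I a ha hle)

theorem mk_evalHom [IsAdicComplete I A] (a : σ → A) (ha : ∀ s, a s ∈ I) (n : ℕ)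
    (f : MvPowerSeries σ R) :
    Ideal.Quotient.mk (I ^ n) (evalHom I a ha f) =
      Ideal.Quotient.mk (I ^ n) (MvPolynomial.aeval a (truncTotal n f)) := by
  rw [evalHom, IsAdicComplete.mk_liftAlgHom I _ (fun hle => evalQuot_compat I a ha hle),
    evalQuot_apply]

theorem evalHom_coe [IsAdicComplete I A] (a : σ → A) (ha : ∀ s, a s ∈ I)
    (p : MvPolynomial σ R) :
    evalHom I a ha (p : MvPowerSeries σ R) = MvPolynomial.aeval a p := by
  refine eq_of_forall_sub_mem_pow I fun n => ?_
  rw [← Ideal.Quotient.eq, mk_evalHom, Ideal.Quotient.eq, ← map_sub]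
  refine aeval_mem_pow_of_mem_idealOfVars_pow I ha ?_
  rw [MvPolynomial.mem_pow_idealOfVars_iff']
  intro x hx
  rw [MvPolynomial.coeff_sub, sub_eq_zero, coeff_truncTotal _ hx, MvPolynomial.coeff_coe]

theorem evalHom_X [IsAdicComplete I A] (a : σ → A) (ha : ∀ s, a s ∈ I) (s : σ) :
    evalHom (R := R) I a ha (X s) = a s := by
  rw [← MvPolynomial.coe_X, evalHom_coe, MvPolynomial.aeval_X]

omit [Finite σ] in
theorem algHom_coe (φ : MvPowerSeries σ R →ₐ[R] A) (p : MvPolynomial σ R) :
    φ (p : MvPowerSeries σ R) = MvPolynomial.aeval (fun s => φ (X s)) p := by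
  induction p using MvPolynomial.induction_on with
  | C r =>
    have : (C r : MvPowerSeries σ R) = algebraMap R (MvPowerSeries σ R) r := by
      rw [MvPowerSeries.algebraMap_apply, Algebra.algebraMap_self, RingHom.id_apply]
    rw [MvPolynomial.coe_C, MvPolynomial.aeval_C, this, φ.commutes]
  | add p q hp hq => rw [MvPolynomial.coe_add, map_add, map_add, hp, hq]
  | mul_X p s hp => rw [MvPolynomial.coe_mul, map_mul, map_mul, hp, MvPolynomial.coe_X,
      MvPolynomial.aeval_X]

theorem algHom_mem_pow_of_coeff_eq_zero (φ : MvPowerSeries σ R →ₐ[R] A) (hφ : ∀ s, φ (X s) ∈ I)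
    {n : ℕ} {g : MvPowerSeries σ R}
    (hg : ∀ d : σ →₀ ℕ, Finsupp.degree d < n → coeff d g = 0) : φ g ∈ I ^ n := by
  have h1 : Ideal.map φ (Ideal.span (Set.range (X : σ → MvPowerSeries σ R))) ≤ I := by
    rw [Ideal.map_span, Ideal.span_le]
    rintro _ ⟨_, ⟨s, rfl⟩, rfl⟩
    exact hφ s
  have h2 := Ideal.mem_map_of_mem φ (mem_span_X_pow_of_coeff_eq_zero hg)
  rw [Ideal.map_pow] at h2
  exact Ideal.pow_right_mono h1 n h2

/-- Two algebra maps out of the power series ring into an `I`-adically separated ring which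
agree on the variables, and send them into `I`, are equal. -/
theorem algHom_ext_of_X [IsHausdorff I A] {φ ψ : MvPowerSeries σ R →ₐ[R] A}
    (hφ : ∀ s, φ (X s) ∈ I) (h : ∀ s, φ (X s) = ψ (X s)) : φ = ψ := by
  refine AlgHom.ext fun f => eq_of_forall_sub_mem_pow I fun n => ?_
  have hsplit : f = (truncTotal n f : MvPowerSeries σ R) +
      (f - (truncTotal n f : MvPowerSeries σ R)) := by ring
  have hg : ∀ d : σ →₀ ℕ, Finsupp.degree d < n →
      coeff d (f - (truncTotal n f : MvPowerSeries σ R)) = 0 := by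
    intro d hd
    rw [map_sub, MvPolynomial.coeff_coe, coeff_truncTotal _ hd, sub_self]
  have hpoly : φ (truncTotal n f : MvPowerSeries σ R) = ψ (truncTotal n f : MvPowerSeries σ R) := by
    rw [algHom_coe, algHom_coe]
    congr 2
    funext s
    exact h s
  have hψ : ∀ s, ψ (X s) ∈ I := fun s => h s ▸ hφ s
  rw [hsplit, map_add, map_add, hpoly, add_sub_add_left_eq_sub]
  exact Ideal.sub_mem _ (algHom_mem_pow_of_coeff_eq_zero I φ hφ hg)
    (algHom_mem_pow_of_coeff_eq_zero I ψ hψ hg)

end Lift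

end Fermat.Agent.Lib.Deform
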