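/-
Maps from a test algebra to the dual numbers `k[ε]` attached to functionals on the cotangent
space (used in the proof of S53).
-/
import Fermat.Agent.Lib.Deform.TestAlg

set_option autoImplicit false
set_option linter.style.haveILetI false

namespace Fermat.Agent.Lib.Deform

open IsLocalRing

section Tangent

variable {𝒪 : Type} [CommRing 𝒪] [IsLocalRing 𝒪]
variable {A : Type} [CommRing A] [IsLocalRing A] [Algebra 𝒪 A]

local notation "k" => ResidueField 𝒪

/-- The identification of the residue field of a test algebra with that of `𝒪`. -/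
noncomputable def residueEquiv (hA : IsTestAlgebra 𝒪 A) : ResidueField A ≃+* ResidueField 𝒪 :=
  haveI := hA.isLocalHom
  (RingEquiv.ofBijective (ResidueField.map (algebraMap 𝒪 A)) hA.residueFieldMap_bijective).symm

theorem resk_apply (hA : IsTestAlgebra 𝒪 A) (a : A) :
    resk hA a = residueEquiv hA (residue A a) := rfl

variable (hA : IsTestAlgebra 𝒪 A)
  (lam : CotangentSpace A →ₗ[ResidueField A] ResidueField A)
  (hlam : ∀ (t : 𝒪) (ht : t ∈ maximalIdeal 𝒪),
    lam ((maximalIdeal A).toCotangent ⟨algebraMap 𝒪 A t, hA.algebraMap_mem ht⟩) = 0)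

omit [Algebra 𝒪 A] in
theorem lam_toCotangent_smul (a : A) (x : maximalIdeal A) :
    lam ((maximalIdeal A).toCotangent (a • x)) =
      residue A a * lam ((maximalIdeal A).toCotangent x) := by
  rw [LinearMap.map_smul, ← algebraMap_smul (ResidueField A) a, LinearMap.map_smul, smul_eq_mul,
    ResidueField.algebraMap_eq]

/-- Auxiliary: the value of the functional on `a - r` for a scalar `r` congruent to `a`. -/
noncomputable def tangentAux (a : A) : ResidueField A :=
  lam ((maximalIdeal A).toCotangent
    ⟨a - algebraMap 𝒪 A (Classical.choose (hA.exists_sub_mem a)),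
      Classical.choose_spec (hA.exists_sub_mem a)⟩)

include hlam in
theorem tangentAux_eq (a : A) (r : 𝒪) (h : a - algebraMap 𝒪 A r ∈ maximalIdeal A) :
    tangentAux hA lam a = lam ((maximalIdeal A).toCotangent ⟨a - algebraMap 𝒪 A r, h⟩) := by
  set r₀ := Classical.choose (hA.exists_sub_mem a) with hr₀
  have h₀ : a - algebraMap 𝒪 A r₀ ∈ maximalIdeal A := Classical.choose_spec (hA.exists_sub_mem a)
  have ht : r - r₀ ∈ maximalIdeal 𝒪 := by
    rw [← hA.algebraMap_mem_iff, map_sub]
    have := sub_mem h₀ h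
    rwa [sub_sub_sub_cancel_left] at this
  have hsub : (⟨a - algebraMap 𝒪 A r₀, h₀⟩ : maximalIdeal A) =
      ⟨a - algebraMap 𝒪 A r, h⟩ + ⟨algebraMap 𝒪 A (r - r₀), hA.algebraMap_mem ht⟩ := by
    apply Subtype.ext
    simp only [Submodule.coe_add, map_sub]
    ring
  show lam ((maximalIdeal A).toCotangent ⟨a - algebraMap 𝒪 A r₀, h₀⟩) = _
  rw [hsub, map_add, map_add, hlam _ ht, add_zero]

include hlam in
theorem tangentAux_add (a b : A) :
    tangentAux hA lam (a + b) = tangentAux hA lam a + tangentAux hA lam b := by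
  obtain ⟨r, hr⟩ := hA.exists_sub_mem a
  obtain ⟨s, hs⟩ := hA.exists_sub_mem b
  have hrs : a + b - algebraMap 𝒪 A (r + s) ∈ maximalIdeal A := by
    have := add_mem hr hs
    rwa [map_add, add_sub_add_comm]
  rw [tangentAux_eq hA lam hlam a r hr, tangentAux_eq hA lam hlam b s hs,
    tangentAux_eq hA lam hlam (a + b) (r + s) hrs, ← map_add, ← map_add]
  congr 2
  apply Subtype.ext
  simp only [Submodule.coe_add, map_add]
  ring

include hlam in
theorem tangentAux_algebraMap (r : 𝒪) : tangentAux hA lam (algebraMap 𝒪 A r) = 0 := by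
  have h : algebraMap 𝒪 A r - algebraMap 𝒪 A r ∈ maximalIdeal A := by
    rw [sub_self]; exact zero_mem _
  rw [tangentAux_eq hA lam hlam _ r h]
  have : (⟨algebraMap 𝒪 A r - algebraMap 𝒪 A r, h⟩ : maximalIdeal A) = 0 := by
    apply Subtype.ext
    simp
  rw [this, map_zero, map_zero]

include hlam in
theorem tangentAux_mul (a b : A) :
    tangentAux hA lam (a * b) =
      residue A a * tangentAux hA lam b + residue A b * tangentAux hA lam a := by
  obtain ⟨r, hr⟩ := hA.exists_sub_mem a
  obtain ⟨s, hs⟩ := hA.exists_sub_mem b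
  have hrs : a * b - algebraMap 𝒪 A (r * s) ∈ maximalIdeal A := by
    have h1 : a * b - algebraMap 𝒪 A (r * s) =
        a * (b - algebraMap 𝒪 A s) + algebraMap 𝒪 A s * (a - algebraMap 𝒪 A r) := by
      rw [map_mul]; ring
    rw [h1]
    exact add_mem (Ideal.mul_mem_left _ _ hs) (Ideal.mul_mem_left _ _ hr)
  rw [tangentAux_eq hA lam hlam a r hr, tangentAux_eq hA lam hlam b s hs,
    tangentAux_eq hA lam hlam (a * b) (r * s) hrs]
  have hdecomp : (⟨a * b - algebraMap 𝒪 A (r * s), hrs⟩ : maximalIdeal A) =
      a • ⟨b - algebraMap 𝒪 A s, hs⟩ + algebraMap 𝒪 A s • ⟨a - algebraMap 𝒪 A r, hr⟩ := by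
    apply Subtype.ext
    simp only [Submodule.coe_add, Submodule.coe_smul, smul_eq_mul, map_mul]
    ring
  have hres : residue A (algebraMap 𝒪 A s) = residue A b := by
    rw [← sub_eq_zero, ← map_sub, residue_eq_zero_iff, ← neg_sub]
    exact neg_mem hs
  rw [hdecomp, map_add, map_add, lam_toCotangent_smul, lam_toCotangent_smul, hres]

/-- The `𝒪`-algebra map `A → k[ε]` attached to a functional on the cotangent space which kills
the image of the maximal ideal of `𝒪`. -/
noncomputable def tangentHom :
    letI := dualNumberAlgebra 𝒪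
    A →ₐ[𝒪] DualNumber k :=
  dualNumberHom (resk hA) (fun a => residueEquiv hA (tangentAux hA lam a))
    (fun a b => by rw [tangentAux_add hA lam hlam, map_add])
    (fun a b => by
      rw [tangentAux_mul hA lam hlam, map_add, map_mul, map_mul, resk_apply, resk_apply])
    (fun r => by rw [tangentAux_algebraMap hA lam hlam, map_zero])

theorem tangentHom_apply_of_mem (m : A) (hm : m ∈ maximalIdeal A) :
    tangentHom hA lam hlam m =
      TrivSqZeroExt.inr (residueEquiv hA (lam ((maximalIdeal A).toCotangent ⟨m, hm⟩))) := by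
  have h : m - algebraMap 𝒪 A 0 ∈ maximalIdeal A := by rwa [map_zero, sub_zero]
  have h2 : (⟨m - algebraMap 𝒪 A 0, h⟩ : maximalIdeal A) = ⟨m, hm⟩ := by
    apply Subtype.ext; simp
  rw [tangentHom, dualNumberHom_apply, (resk_eq_zero_iff hA m).mpr hm, TrivSqZeroExt.inl_zero,
    zero_add, tangentAux_eq hA lam hlam m 0 h, h2]

end Tangent

end Fermat.Agent.Lib.Deform
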