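/-
Abstract pro-representability (chunk B of S53): a subfunctor `F` of `A ↦ (X → A)` on local
`𝒪`-algebras satisfying F0–F5 is pro-represented by a complete noetherian local `𝒪`-algebra.
-/
import Fermat.Agent.Lib.Deform.Tangent
import Fermat.Agent.Lib.Deform.PowerSeries
import Fermat.Agent.Lib.Deform.Approx

set_option autoImplicit false
set_option linter.style.haveILetI false
set_option linter.unusedSectionVars false

namespace Fermat.Agent.Lib.Deform

open IsLocalRing GaloisRep Function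

namespace Universal

/-- The hypotheses of `exists_universal`, bundled. -/
structure Hyp (𝒪 : Type) [CommRing 𝒪] [IsLocalRing 𝒪] (X : Type)
    (F : ∀ (A : Type) [CommRing A] [IsLocalRing A] [Algebra 𝒪 A], Set (X → A))
    (f₀ : X → 𝒪) : Prop where
  hres : ∀ (A : Type) [CommRing A] [IsLocalRing A] [Algebra 𝒪 A] (f : X → A), f ∈ F A →
      ∀ x, f x - algebraMap 𝒪 A (f₀ x) ∈ maximalIdeal A
  hk : (fun x => algebraMap 𝒪 (ResidueField 𝒪) (f₀ x)) ∈ F (ResidueField 𝒪)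
  hmap : ∀ (A B : Type) [CommRing A] [IsLocalRing A] [Algebra 𝒪 A]
      [CommRing B] [IsLocalRing B] [Algebra 𝒪 B],
      IsArtinianTestAlgebra 𝒪 A → IsArtinianTestAlgebra 𝒪 B →
      ∀ (φ : A →ₐ[𝒪] B) (f : X → A), f ∈ F A → (φ ∘ f) ∈ F B
  hinj : ∀ (A B : Type) [CommRing A] [IsLocalRing A] [Algebra 𝒪 A]
      [CommRing B] [IsLocalRing B] [Algebra 𝒪 B],
      IsArtinianTestAlgebra 𝒪 A → IsArtinianTestAlgebra 𝒪 B →
      ∀ (φ : A →ₐ[𝒪] B), Injective φ → ∀ (f : X → A), (φ ∘ f) ∈ F B → f ∈ F A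
  hfib : ∀ (A B C P : Type) [CommRing A] [IsLocalRing A] [Algebra 𝒪 A]
      [CommRing B] [IsLocalRing B] [Algebra 𝒪 B] [CommRing C] [IsLocalRing C] [Algebra 𝒪 C]
      [CommRing P] [IsLocalRing P] [Algebra 𝒪 P],
      IsArtinianTestAlgebra 𝒪 A → IsArtinianTestAlgebra 𝒪 B → IsArtinianTestAlgebra 𝒪 C →
      IsArtinianTestAlgebra 𝒪 P →
      ∀ (f : A →ₐ[𝒪] C) (g : B →ₐ[𝒪] C) (pA : P →ₐ[𝒪] A) (pB : P →ₐ[𝒪] B),
      f.comp pA = g.comp pB →
      Injective (fun x => (pA x, pB x)) →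
      (∀ a b, f a = g b → ∃ x, pA x = a ∧ pB x = b) →
      ∀ (h : X → P), (pA ∘ h) ∈ F A → (pB ∘ h) ∈ F B → h ∈ F P
  hcont : ∀ (A : Type) [CommRing A] [IsLocalRing A] [IsNoetherianRing A]
      [IsAdicComplete (maximalIdeal A) A] [Algebra 𝒪 A],
      IsLocalHom (algebraMap 𝒪 A) → Surjective (residue A ∘ algebraMap 𝒪 A) →
      ∀ (f : X → A), f ∈ F A ↔
        ∀ (B : Type) [CommRing B] [IsLocalRing B] [Algebra 𝒪 B], IsArtinianTestAlgebra 𝒪 B →
          ∀ (q : A →ₐ[𝒪] B), Surjective q → (q ∘ f) ∈ F B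
  hfin : (@F (DualNumber (ResidueField 𝒪)) _ _ (dualNumberAlgebra 𝒪)).Finite

variable {𝒪 : Type} [CommRing 𝒪] [IsLocalRing 𝒪] {X : Type}
  {F : ∀ (A : Type) [CommRing A] [IsLocalRing A] [Algebra 𝒪 A], Set (X → A)} {f₀ : X → 𝒪}

/-- The constant point over the dual numbers. -/
noncomputable def constPt (f₀ : X → 𝒪) : X → DualNumber (ResidueField 𝒪) :=
  fun x => TrivSqZeroExt.inl (residue 𝒪 (f₀ x))

/-- Step 1: finitely many coordinates separate the points over `k[ε]` from the constant point. -/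
theorem exists_separating (H : Hyp 𝒪 X F f₀) :
    ∃ ι : Finset X, ∀ g ∈ @F (DualNumber (ResidueField 𝒪)) _ _ (dualNumberAlgebra 𝒪),
      (∀ x ∈ ι, g x = constPt f₀ x) → g = constPt f₀ := by
  classical
  let pick : (X → DualNumber (ResidueField 𝒪)) → Finset X := fun g =>
    if h : ∃ x, g x ≠ constPt f₀ x then {Classical.choose h} else ∅
  refine ⟨H.hfin.toFinset.biUnion pick, fun g hg hgι => ?_⟩
  by_contra hne
  have h : ∃ x, g x ≠ constPt f₀ x := by
    by_contra hall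
    simp only [not_exists, not_not] at hall
    exact hne (funext hall)
  have hmem : Classical.choose h ∈ H.hfin.toFinset.biUnion pick := by
    rw [Finset.mem_biUnion]
    refine ⟨g, H.hfin.mem_toFinset.mpr hg, ?_⟩
    simp only [pick, dif_pos h, Finset.mem_singleton]
  exact Classical.choose_spec h (hgι _ hmem)

section Gen

variable {A : Type} [CommRing A] [IsLocalRing A] [Algebra 𝒪 A]

/-- The ideal generated by the image of the maximal ideal of `𝒪` and the elements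
`f c - f₀ c`, `c ∈ T`. -/
def genIdeal (f₀ : X → 𝒪) (f : X → A) (T : Set X) : Ideal A :=
  Ideal.span ((algebraMap 𝒪 A '' (maximalIdeal 𝒪 : Set 𝒪)) ∪
    (fun c => f c - algebraMap 𝒪 A (f₀ c)) '' T)

theorem genIdeal_le (hA : IsTestAlgebra 𝒪 A) (f : X → A)
    (hf : ∀ x, f x - algebraMap 𝒪 A (f₀ x) ∈ maximalIdeal A) (T : Set X) :
    genIdeal f₀ f T ≤ maximalIdeal A := by
  rw [genIdeal, Ideal.span_le]
  rintro _ (⟨t, ht, rfl⟩ | ⟨c, -, rfl⟩)
  · exact hA.algebraMap_mem ht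
  · exact hf c

/-- If `f(X)` generates `A` as an `𝒪`-algebra then the maximal ideal is generated by the maximal
ideal of `𝒪` and the `f x - f₀ x`. -/
theorem maximalIdeal_le_genIdeal_univ (hA : IsTestAlgebra 𝒪 A) (f : X → A)
    (hf : ∀ x, f x - algebraMap 𝒪 A (f₀ x) ∈ maximalIdeal A)
    (htight : Algebra.adjoin 𝒪 (Set.range f) = ⊤) :
    maximalIdeal A ≤ genIdeal f₀ f Set.univ := by
  set I' : Ideal A := Ideal.span ((fun c => f c - algebraMap 𝒪 A (f₀ c)) '' Set.univ) with hI'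
  have hI'le : I' ≤ genIdeal f₀ f Set.univ := Ideal.span_mono Set.subset_union_right
  have hI'm : I' ≤ maximalIdeal A := by
    rw [hI', Ideal.span_le]
    rintro _ ⟨c, -, rfl⟩
    exact hf c
  have key : ∀ a : A, ∃ r : 𝒪, a - algebraMap 𝒪 A r ∈ I' := by
    intro a
    have ha : a ∈ Algebra.adjoin 𝒪 (Set.range f) := by rw [htight]; exact Algebra.mem_top
    induction ha using Algebra.adjoin_induction with
    | mem y hy =>
      obtain ⟨x, rfl⟩ := hy
      exact ⟨f₀ x, Ideal.subset_span ⟨x, Set.mem_univ _, rfl⟩⟩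
    | algebraMap r => exact ⟨r, by rw [sub_self]; exact zero_mem _⟩
    | add a b _ _ ha hb =>
      obtain ⟨r, hr⟩ := ha
      obtain ⟨s, hs⟩ := hb
      refine ⟨r + s, ?_⟩
      have := add_mem hr hs
      rwa [map_add, add_sub_add_comm]
    | mul a b _ _ ha hb =>
      obtain ⟨r, hr⟩ := ha
      obtain ⟨s, hs⟩ := hb
      refine ⟨r * s, ?_⟩
      have h1 : a * b - algebraMap 𝒪 A (r * s) =
          a * (b - algebraMap 𝒪 A s) + algebraMap 𝒪 A s * (a - algebraMap 𝒪 A r) := by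
        rw [map_mul]; ring
      rw [h1]
      exact add_mem (Ideal.mul_mem_left _ _ hs) (Ideal.mul_mem_left _ _ hr)
  intro a ha
  obtain ⟨r, hr⟩ := key a
  have hr' : algebraMap 𝒪 A r ∈ maximalIdeal A := by
    have := sub_mem ha (hI'm hr)
    rwa [sub_sub_cancel] at this
  have hr'' : r ∈ maximalIdeal 𝒪 := hA.algebraMap_mem_iff.mp hr'
  have h2 : algebraMap 𝒪 A r ∈ genIdeal f₀ f Set.univ :=
    Ideal.subset_span (Or.inl ⟨r, hr'', rfl⟩)
  have := add_mem (hI'le hr) h2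
  rwa [sub_add_cancel] at this

/-- The crux: if `ι` separates the points over `k[ε]` from the constant point and `f(X)` generates
`A`, then the maximal ideal is already generated by the maximal ideal of `𝒪` and the `f c - f₀ c`
with `c ∈ ι`. -/
theorem maximalIdeal_le_genIdeal [Finite (ResidueField 𝒪)] (H : Hyp 𝒪 X F f₀) (ι : Finset X)
    (hι : ∀ g ∈ @F (DualNumber (ResidueField 𝒪)) _ _ (dualNumberAlgebra 𝒪),
      (∀ x ∈ ι, g x = constPt f₀ x) → g = constPt f₀)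
    [Finite A] (hA : IsTestAlgebra 𝒪 A) (f : X → A) (hfF : f ∈ F A)
    (htight : Algebra.adjoin 𝒪 (Set.range f) = ⊤) :
    maximalIdeal A ≤ genIdeal f₀ f (ι : Set X) := by
  have hf : ∀ x, f x - algebraMap 𝒪 A (f₀ x) ∈ maximalIdeal A := H.hres A f hfF
  set I := genIdeal f₀ f (ι : Set X) with hI
  have hIle : I ≤ maximalIdeal A := genIdeal_le hA f hf _
  set M : Submodule A (maximalIdeal A) := Submodule.comap (maximalIdeal A).subtype I with hM
  suffices hMtop : M = ⊤ by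
    intro m hm
    have : (⟨m, hm⟩ : maximalIdeal A) ∈ M := by rw [hMtop]; exact Submodule.mem_top
    exact this
  have hspan : Submodule.span A (M : Set (maximalIdeal A)) = M := Submodule.span_eq M
  rw [← hspan, ← CotangentSpace.span_image_eq_top_iff]
  by_contra hne
  obtain ⟨lam, hlam0, hlamker⟩ := Submodule.exists_le_ker_of_lt_top _ (lt_top_iff_ne_top.mpr hne)
  -- `lam` kills the image of `M`
  have hlamM : ∀ (m : A) (hm : m ∈ maximalIdeal A), m ∈ I →
      lam ((maximalIdeal A).toCotangent ⟨m, hm⟩) = 0 := by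
    intro m hm hmI
    have : (maximalIdeal A).toCotangent ⟨m, hm⟩ ∈ LinearMap.ker lam :=
      hlamker (Submodule.subset_span ⟨⟨m, hm⟩, hmI, rfl⟩)
    exact this
  have hlam : ∀ (t : 𝒪) (ht : t ∈ maximalIdeal 𝒪),
      lam ((maximalIdeal A).toCotangent ⟨algebraMap 𝒪 A t, hA.algebraMap_mem ht⟩) = 0 :=
    fun t ht => hlamM _ _ (Ideal.subset_span (Or.inl ⟨t, ht, rfl⟩))
  -- the tangent map
  letI := dualNumberAlgebra 𝒪
  have hAart : IsArtinianTestAlgebra 𝒪 A := hA.artinian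
  have hg : (tangentHom hA lam hlam ∘ f) ∈ F (DualNumber (ResidueField 𝒪)) :=
    H.hmap A _ hAart (isArtinianTestAlgebra_dualNumber 𝒪) (tangentHom hA lam hlam) f hfF
  have hgx : ∀ x, (tangentHom hA lam hlam ∘ f) x = constPt f₀ x + TrivSqZeroExt.inr
      (residueEquiv hA (lam ((maximalIdeal A).toCotangent ⟨_, hf x⟩))) := by
    intro x
    have h1 : f x = algebraMap 𝒪 A (f₀ x) + (f x - algebraMap 𝒪 A (f₀ x)) := by ring
    rw [Function.comp_apply]
    conv_lhs => rw [h1]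
    rw [map_add, AlgHom.commutes, dualNumber_algebraMap_apply,
      tangentHom_apply_of_mem hA lam hlam _ (hf x)]
    rfl
  have hconst : (tangentHom hA lam hlam ∘ f) = constPt f₀ := by
    refine hι _ hg fun c hc => ?_
    rw [hgx, hlamM _ _ (Ideal.subset_span (Or.inr ⟨c, hc, rfl⟩)), map_zero,
      TrivSqZeroExt.inr_zero, add_zero]
  have hlamx : ∀ x, lam ((maximalIdeal A).toCotangent ⟨_, hf x⟩) = 0 := by
    intro x
    have h1 := hgx x
    rw [hconst, left_eq_add] at h1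
    have h2 := TrivSqZeroExt.inr_injective (h1.trans (TrivSqZeroExt.inr_zero _).symm)
    exact (residueEquiv hA).injective (h2.trans (map_zero _).symm)
  -- hence `lam` kills everything
  have hall : ∀ y ∈ genIdeal f₀ f Set.univ,
      ∃ hy : y ∈ maximalIdeal A, lam ((maximalIdeal A).toCotangent ⟨y, hy⟩) = 0 := by
    intro y hy
    induction hy using Submodule.span_induction with
    | mem y hy =>
      rcases hy with ⟨t, ht, rfl⟩ | ⟨x, -, rfl⟩
      · exact ⟨hA.algebraMap_mem ht, hlam t ht⟩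
      · exact ⟨hf x, hlamx x⟩
    | zero =>
      refine ⟨zero_mem _, ?_⟩
      have : (⟨0, zero_mem _⟩ : maximalIdeal A) = 0 := rfl
      rw [this, map_zero, map_zero]
    | add y z _ _ hy hz =>
      obtain ⟨hy1, hy2⟩ := hy
      obtain ⟨hz1, hz2⟩ := hz
      refine ⟨add_mem hy1 hz1, ?_⟩
      have : (⟨y + z, add_mem hy1 hz1⟩ : maximalIdeal A) = ⟨y, hy1⟩ + ⟨z, hz1⟩ := rfl
      rw [this, map_add, map_add, hy2, hz2, add_zero]
    | smul a y _ hy =>
      obtain ⟨hy1, hy2⟩ := hy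
      refine ⟨Ideal.mul_mem_left _ _ hy1, ?_⟩
      have : (⟨a • y, Ideal.mul_mem_left _ _ hy1⟩ : maximalIdeal A) = a • ⟨y, hy1⟩ := rfl
      rw [this, lam_toCotangent_smul, hy2, mul_zero]
  apply hlam0
  refine LinearMap.ext fun z => ?_
  obtain ⟨⟨m, hm⟩, rfl⟩ := (maximalIdeal A).toCotangent_surjective z
  obtain ⟨_, h⟩ := hall m (maximalIdeal_le_genIdeal_univ hA f hf htight hm)
  rw [h, LinearMap.zero_apply]

/-- If the maximal ideal (nilpotent) is generated by elements of a subalgebra, the subalgebra is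
everything. -/
theorem subalgebra_eq_top_of_genIdeal (hA : IsTestAlgebra 𝒪 A) (f : X → A) (T : Set X)
    (hf : ∀ x, f x - algebraMap 𝒪 A (f₀ x) ∈ maximalIdeal A)
    (hgen : maximalIdeal A ≤ genIdeal f₀ f T) {N : ℕ} (hN : maximalIdeal A ^ N = ⊥)
    (A₁ : Subalgebra 𝒪 A) (hA₁ : ∀ c ∈ T, f c - algebraMap 𝒪 A (f₀ c) ∈ A₁) : A₁ = ⊤ := by
  have key : ∀ n : ℕ, ∀ a : A, ∃ b ∈ A₁, a - b ∈ maximalIdeal A ^ n := by
    intro n
    induction n with
    | zero => intro a; exact ⟨0, zero_mem _, by rw [pow_zero, Ideal.one_eq_top]; trivial⟩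
    | succ n ih =>
      have hspan : ∀ y ∈ genIdeal f₀ f T,
          y ∈ maximalIdeal A ∧ ∃ b ∈ A₁, y - b ∈ maximalIdeal A ^ (n + 1) := by
        intro y hy
        induction hy using Submodule.span_induction with
        | mem y hy =>
          rcases hy with ⟨t, ht, rfl⟩ | ⟨c, hc, rfl⟩
          · exact ⟨hA.algebraMap_mem ht, _, A₁.algebraMap_mem t, by rw [sub_self]; exact zero_mem _⟩
          · exact ⟨hf c, _, hA₁ c hc, by rw [sub_self]; exact zero_mem _⟩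
        | zero => exact ⟨zero_mem _, 0, zero_mem _, by rw [sub_self]; exact zero_mem _⟩
        | add y z _ _ hy hz =>
          obtain ⟨hy1, b, hb, hyb⟩ := hy
          obtain ⟨hz1, c, hc, hzc⟩ := hz
          refine ⟨add_mem hy1 hz1, b + c, add_mem hb hc, ?_⟩
          have := add_mem hyb hzc
          rwa [add_sub_add_comm]
        | smul a y _ hy =>
          obtain ⟨hy1, b, hb, hyb⟩ := hy
          obtain ⟨a', ha', haa'⟩ := ih a
          refine ⟨Ideal.mul_mem_left _ _ hy1, a' * b, mul_mem ha' hb, ?_⟩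
          have h1 : a • y - a' * b = a' * (y - b) + (a - a') * y := by
            rw [smul_eq_mul]; ring
          rw [h1, pow_succ]
          refine add_mem (Ideal.mul_mem_left _ _ ?_) (Ideal.mul_mem_mul haa' hy1)
          rw [← pow_succ]
          exact hyb
      intro a
      obtain ⟨r, hr⟩ := hA.exists_sub_mem a
      obtain ⟨-, b, hb, hab⟩ := hspan _ (hgen hr)
      refine ⟨algebraMap 𝒪 A r + b, add_mem (A₁.algebraMap_mem r) hb, ?_⟩
      have : a - (algebraMap 𝒪 A r + b) = a - algebraMap 𝒪 A r - b := by ring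
      rw [this]
      exact hab
  rw [eq_top_iff]
  intro a _
  obtain ⟨b, hb, hab⟩ := key N a
  rw [hN, Ideal.mem_bot, sub_eq_zero] at hab
  rw [hab]
  exact hb

end Gen

section UHom

variable {A : Type} [CommRing A] [IsLocalRing A] [Algebra 𝒪 A]
  [IsAdicComplete (maximalIdeal A) A]

/-- The map from the power series ring in the variables `ι` to `A` attached to `f : X → A`:
`X_c ↦ f c - f₀ c`. -/
noncomputable def uHom (f₀ : X → 𝒪) (ι : Finset X) (f : X → A)
    (hf : ∀ x, f x - algebraMap 𝒪 A (f₀ x) ∈ maximalIdeal A) : MvPowerSeries ι 𝒪 →ₐ[𝒪] A :=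
  evalHom (maximalIdeal A) (fun c : ι => f c - algebraMap 𝒪 A (f₀ c)) (fun c => hf c)

theorem uHom_X (ι : Finset X) (f : X → A)
    (hf : ∀ x, f x - algebraMap 𝒪 A (f₀ x) ∈ maximalIdeal A) (c : ι) :
    uHom f₀ ι f hf (MvPowerSeries.X c) = f c - algebraMap 𝒪 A (f₀ c) :=
  evalHom_X _ _ _ c

theorem uHom_X_add_C (ι : Finset X) (f : X → A)
    (hf : ∀ x, f x - algebraMap 𝒪 A (f₀ x) ∈ maximalIdeal A) (c : ι) :
    uHom f₀ ι f hf (MvPowerSeries.X c + MvPowerSeries.C (f₀ c)) = f c := by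
  have : (MvPowerSeries.C (f₀ c) : MvPowerSeries ι 𝒪) = algebraMap 𝒪 (MvPowerSeries ι 𝒪) (f₀ c) := by
    rw [MvPowerSeries.algebraMap_apply, Algebra.algebraMap_self, RingHom.id_apply]
  rw [map_add, uHom_X, this, AlgHom.commutes, sub_add_cancel]

/-- Uniqueness of algebra maps out of the power series ring. -/
theorem algHom_eq_uHom (ι : Finset X) (f : X → A)
    (hf : ∀ x, f x - algebraMap 𝒪 A (f₀ x) ∈ maximalIdeal A) (ψ : MvPowerSeries ι 𝒪 →ₐ[𝒪] A)
    (hψ : ∀ c : ι, ψ (MvPowerSeries.X c) = f c - algebraMap 𝒪 A (f₀ c)) : ψ = uHom f₀ ι f hf := by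
  refine algHom_ext_of_X (maximalIdeal A) (fun c => ?_) (fun c => ?_)
  · rw [hψ]; exact hf c
  · rw [hψ, uHom_X]

theorem comp_uHom {B : Type} [CommRing B] [IsLocalRing B] [Algebra 𝒪 B]
    [IsAdicComplete (maximalIdeal B) B] (ι : Finset X) (f : X → A)
    (hf : ∀ x, f x - algebraMap 𝒪 A (f₀ x) ∈ maximalIdeal A) (φ : A →ₐ[𝒪] B)
    (hφf : ∀ x, (φ ∘ f) x - algebraMap 𝒪 B (f₀ x) ∈ maximalIdeal B) :
    φ.comp (uHom f₀ ι f hf) = uHom f₀ ι (φ ∘ f) hφf := by
  refine algHom_eq_uHom ι (φ ∘ f) hφf _ fun c => ?_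
  rw [AlgHom.comp_apply, uHom_X, map_sub, AlgHom.commutes, Function.comp_apply]

end UHom

section Finite

variable [Finite (ResidueField 𝒪)] (H : Hyp 𝒪 X F f₀) (ι : Finset X)
  (hι : ∀ g ∈ @F (DualNumber (ResidueField 𝒪)) _ _ (dualNumberAlgebra 𝒪),
      (∀ x ∈ ι, g x = constPt f₀ x) → g = constPt f₀)
variable {A : Type} [CommRing A] [IsLocalRing A] [Algebra 𝒪 A] [Finite A]

include H hι in
/-- For a tight point the map from the power series ring is surjective. -/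
theorem uHom_surjective_of_tight [IsAdicComplete (maximalIdeal A) A] (hA : IsTestAlgebra 𝒪 A)
    (f : X → A) (hfF : f ∈ F A) (htight : Algebra.adjoin 𝒪 (Set.range f) = ⊤) :
    Surjective (uHom f₀ ι f (H.hres A f hfF)) := by
  obtain ⟨N, hN⟩ := exists_maximalIdeal_pow_eq_bot A
  have h := subalgebra_eq_top_of_genIdeal hA f (ι : Set X) (H.hres A f hfF)
    (maximalIdeal_le_genIdeal H ι hι hA f hfF htight) hN (uHom f₀ ι f (H.hres A f hfF)).range
    (fun c hc => ⟨MvPowerSeries.X ⟨c, hc⟩, uHom_X ι f _ ⟨c, hc⟩⟩)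
  intro a
  have : a ∈ (uHom f₀ ι f (H.hres A f hfF)).range := by rw [h]; exact Algebra.mem_top
  exact this

include H hι in
/-- For any point over a finite test algebra, the values of `f` lie in the image of the power
series ring. -/
theorem mem_range_uHom [IsAdicComplete (maximalIdeal A) A] (hA : IsTestAlgebra 𝒪 A)
    (f : X → A) (hfF : f ∈ F A) (x : X) : f x ∈ (uHom f₀ ι f (H.hres A f hfF)).range := by
  set A₀ : Subalgebra 𝒪 A := Algebra.adjoin 𝒪 (Set.range f) with hA₀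
  have hinjval : Injective (A₀.val : A₀ →ₐ[𝒪] A) := Subtype.val_injective
  haveI : Finite A₀ := Subtype.finite
  haveI : IsLocalRing A₀ := (isLocalRing_of_injective (A₀.val : A₀ →+* A) hinjval).1
  have hA₀t : IsTestAlgebra 𝒪 A₀ := hA.of_injective A₀.val hinjval
  haveI : IsAdicComplete (maximalIdeal A₀) A₀ := isAdicComplete_of_isArtinianRing A₀
  set f' : X → A₀ := fun y => ⟨f y, Algebra.subset_adjoin ⟨y, rfl⟩⟩ with hf'
  have hf'F : f' ∈ F A₀ := H.hinj A₀ A hA₀t.artinian hA.artinian A₀.val hinjval f' hfF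
  have htight : Algebra.adjoin 𝒪 (Set.range f') = ⊤ := by
    apply Subalgebra.map_injective hinjval
    rw [Algebra.map_top, Subalgebra.range_val, AlgHom.map_adjoin, ← Set.range_comp]
    rfl
  obtain ⟨s, hs⟩ := uHom_surjective_of_tight H ι hι hA₀t f' hf'F htight (f' x)
  have hcomp := comp_uHom ι f' (H.hres A₀ f' hf'F) A₀.val (H.hres A f hfF)
  rw [AlgHom.mem_range]
  refine ⟨s, ?_⟩
  have hcomp' : A₀.val.comp (uHom f₀ ι f' (H.hres A₀ f' hf'F)) = uHom f₀ ι f (H.hres A f hfF) :=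
    hcomp
  have := congrArg (fun ψ => ψ s) hcomp'
  simp only [AlgHom.comp_apply] at this
  rw [← this, hs]
  rfl

include H hι in
/-- A point over a finite test algebra is determined by its values on `ι`. -/
theorem eq_of_eqOn (hA : IsTestAlgebra 𝒪 A) (f f' : X → A) (hfF : f ∈ F A) (hf'F : f' ∈ F A)
    (heq : ∀ c ∈ ι, f c = f' c) : f = f' := by
  haveI : IsAdicComplete (maximalIdeal A) A := isAdicComplete_of_isArtinianRing A
  have hf := H.hres A f hfF
  have hf' := H.hres A f' hf'F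
  -- the point `(f, f')` of the fibre product
  have hmem : ∀ x, resk hA (f x) = resk hA (f' x) := fun x => by
    rw [(resk_eq_iff hA _ _).mpr (hf x), (resk_eq_iff hA _ _).mpr (hf' x)]
  set P := fibreProd hA hA with hP
  haveI : Finite P := fibreProd.finite hA hA
  haveI : IsAdicComplete (maximalIdeal P) P := isAdicComplete_of_isArtinianRing P
  have hPt : IsTestAlgebra 𝒪 P := fibreProd.isTestAlgebra hA hA
  set h : X → P := fun x => ⟨(f x, f' x), hmem x⟩ with hh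
  have hhF : h ∈ F P :=
    H.hfib A A (ResidueField 𝒪) P hA.artinian hA.artinian (isArtinianTestAlgebra_residueField 𝒪)
      (fibreProd.isArtinianTestAlgebra hA hA) (resk hA) (resk hA) (fibreProd.fst hA hA)
      (fibreProd.snd hA hA) (fibreProd.comp_eq hA hA) (fibreProd.injective hA hA)
      (fibreProd.exists_of_resk_eq hA hA) h hfF hf'F
  -- both projections of the power series map agree
  have h1 := comp_uHom ι h (H.hres P h hhF) (fibreProd.fst hA hA) hf
  have h2 := comp_uHom ι h (H.hres P h hhF) (fibreProd.snd hA hA) hf'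
  have h3 : uHom f₀ ι f hf = uHom f₀ ι f' hf' := by
    refine algHom_eq_uHom ι f' hf' _ fun c => ?_
    rw [uHom_X, heq c c.2]
  funext x
  obtain ⟨s, hs⟩ := (AlgHom.mem_range _).mp (mem_range_uHom H ι hι hPt h hhF x)
  have e1 : f x = fibreProd.fst hA hA (h x) := rfl
  have e2 : f' x = fibreProd.snd hA hA (h x) := rfl
  rw [e1, e2, ← hs]
  have := congrArg (fun ψ => ψ s) (h1.trans (h3.trans h2.symm))
  simpa only [AlgHom.comp_apply] using this

end Finite

theorem isTestAlgebra_mvPowerSeries (σ : Type) : IsTestAlgebra 𝒪 (MvPowerSeries σ 𝒪) :=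
  ⟨inferInstance, residue_comp_algebraMap_mvPowerSeries_surjective⟩

section Good

variable [IsNoetherianRing 𝒪] [Finite (ResidueField 𝒪)]

/-- Quotients of the power series ring by ideals containing a power of the maximal ideal are
finite test algebras. -/
theorem quotient_facts (ι : Finset X) {J : Ideal (MvPowerSeries ι 𝒪)} (hJ : J ≠ ⊤) {N : ℕ}
    (hN : maximalIdeal (MvPowerSeries ι 𝒪) ^ N ≤ J) :
    haveI := isLocalRing_quotient hJ
    IsTestAlgebra 𝒪 (MvPowerSeries ι 𝒪 ⧸ J) ∧ IsArtinianRing (MvPowerSeries ι 𝒪 ⧸ J) ∧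
      Finite (MvPowerSeries ι 𝒪 ⧸ J) := by
  haveI := isLocalRing_quotient hJ
  have h1 : IsTestAlgebra 𝒪 (MvPowerSeries ι 𝒪 ⧸ J) := (isTestAlgebra_mvPowerSeries _).quotient J
  haveI h2 : IsArtinianRing (MvPowerSeries ι 𝒪 ⧸ J) := isArtinianRing_quotient_of_pow_le hN
  exact ⟨h1, h2, h1.finite_of_isArtinianRing⟩

/-- An ideal `J` of the power series ring is good if the quotient is artinian and carries a
point of `F` whose `ι`-coordinates are the images of `X_c + f₀ c`. -/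
structure Good (F : ∀ (A : Type) [CommRing A] [IsLocalRing A] [Algebra 𝒪 A], Set (X → A))
    (f₀ : X → 𝒪) (ι : Finset X) (J : Ideal (MvPowerSeries ι 𝒪)) : Prop where
  ne_top : J ≠ ⊤
  exists_pow_le : ∃ N : ℕ, maximalIdeal (MvPowerSeries ι 𝒪) ^ N ≤ J
  exists_pt : ∃ f : X → MvPowerSeries ι 𝒪 ⧸ J,
    f ∈ @F (MvPowerSeries ι 𝒪 ⧸ J) _ (isLocalRing_quotient ne_top) _ ∧
    ∀ c : ι, f c = Ideal.Quotient.mk J (MvPowerSeries.X c + MvPowerSeries.C (f₀ c))

end Good

section GoodLemmas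

variable [IsNoetherianRing 𝒪] [Finite (ResidueField 𝒪)] (H : Hyp 𝒪 X F f₀) (ι : Finset X)
  (hι : ∀ g ∈ @F (DualNumber (ResidueField 𝒪)) _ _ (dualNumberAlgebra 𝒪),
      (∀ x ∈ ι, g x = constPt f₀ x) → g = constPt f₀)

include H hι in
/-- (4a) The kernel of the map attached to a point over a finite test algebra is good. -/
theorem good_ker {A : Type} [CommRing A] [IsLocalRing A] [Algebra 𝒪 A] [Finite A]
    [IsAdicComplete (maximalIdeal A) A] (hA : IsTestAlgebra 𝒪 A) (f : X → A) (hfF : f ∈ F A) :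
    Good F f₀ ι (RingHom.ker (uHom f₀ ι f (H.hres A f hfF))) := by
  set u := uHom f₀ ι f (H.hres A f hfF) with hu
  have hne : RingHom.ker u ≠ ⊤ := RingHom.ker_ne_top _
  have hloc : IsLocalHom (u : MvPowerSeries ι 𝒪 →+* A) := isLocalHom_of_isTestAlgebra hA u
  obtain ⟨N, hN⟩ := exists_maximalIdeal_pow_eq_bot A
  have hpow : maximalIdeal (MvPowerSeries ι 𝒪) ^ N ≤ RingHom.ker u := by
    have h1 : Ideal.map (u : MvPowerSeries ι 𝒪 →+* A) (maximalIdeal (MvPowerSeries ι 𝒪)) ≤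
        maximalIdeal A := by
      rw [Ideal.map_le_iff_le_comap]
      intro s hs
      exact (mem_maximalIdeal _).mpr (map_nonunit (u : MvPowerSeries ι 𝒪 →+* A) s hs)
    have h2 : Ideal.map (u : MvPowerSeries ι 𝒪 →+* A) (maximalIdeal (MvPowerSeries ι 𝒪) ^ N) = ⊥ := by
      rw [Ideal.map_pow, ← le_bot_iff, ← hN]
      exact Ideal.pow_right_mono h1 N
    exact (Ideal.map_eq_bot_iff_le_ker _).mp h2
  refine ⟨hne, ⟨N, hpow⟩, ?_⟩
  haveI := isLocalRing_quotient hne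
  obtain ⟨hQt, hQart, hQfin⟩ := quotient_facts ι hne hpow
  have hinj : Injective (Ideal.kerLiftAlg u) := Ideal.kerLiftAlg_injective u
  choose s hs using fun x => (AlgHom.mem_range _).mp (mem_range_uHom H ι hι hA f hfF x)
  refine ⟨fun x => Ideal.Quotient.mk _ (s x), ?_, fun c => ?_⟩
  · refine H.hinj _ A hQt.artinian hA.artinian (Ideal.kerLiftAlg u) hinj _ ?_
    have : (Ideal.kerLiftAlg u ∘ fun x => Ideal.Quotient.mk (RingHom.ker u) (s x)) = f := by
      funext x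
      rw [Function.comp_apply, Ideal.kerLiftAlg_mk, hs]
    rw [this]
    exact hfF
  · apply hinj
    rw [Ideal.kerLiftAlg_mk, Ideal.kerLiftAlg_mk, hs, uHom_X_add_C]

theorem Good.isLocalRing {ι : Finset X} {J : Ideal (MvPowerSeries ι 𝒪)} (hJ : Good F f₀ ι J) :
    IsLocalRing (MvPowerSeries ι 𝒪 ⧸ J) := isLocalRing_quotient hJ.ne_top

theorem Good.facts {ι : Finset X} {J : Ideal (MvPowerSeries ι 𝒪)} (hJ : Good F f₀ ι J) :
    haveI := hJ.isLocalRing
    IsTestAlgebra 𝒪 (MvPowerSeries ι 𝒪 ⧸ J) ∧ IsArtinianRing (MvPowerSeries ι 𝒪 ⧸ J) ∧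
      Finite (MvPowerSeries ι 𝒪 ⧸ J) := by
  obtain ⟨N, hN⟩ := hJ.exists_pow_le
  exact quotient_facts ι hJ.ne_top hN

/-- The point over the quotient by a good ideal. -/
noncomputable def Good.pt {ι : Finset X} {J : Ideal (MvPowerSeries ι 𝒪)} (hJ : Good F f₀ ι J) :
    X → MvPowerSeries ι 𝒪 ⧸ J := Classical.choose hJ.exists_pt

theorem Good.pt_mem {ι : Finset X} {J : Ideal (MvPowerSeries ι 𝒪)} (hJ : Good F f₀ ι J) :
    hJ.pt ∈ @F (MvPowerSeries ι 𝒪 ⧸ J) _ hJ.isLocalRing _ :=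
  (Classical.choose_spec hJ.exists_pt).1

theorem Good.pt_coord {ι : Finset X} {J : Ideal (MvPowerSeries ι 𝒪)} (hJ : Good F f₀ ι J)
    (c : ι) : hJ.pt c = Ideal.Quotient.mk J (MvPowerSeries.X c + MvPowerSeries.C (f₀ c)) :=
  (Classical.choose_spec hJ.exists_pt).2 c

include H hι in
theorem Good.pt_unique {J : Ideal (MvPowerSeries ι 𝒪)} (hJ : Good F f₀ ι J)
    (f : X → MvPowerSeries ι 𝒪 ⧸ J) (hf : f ∈ @F (MvPowerSeries ι 𝒪 ⧸ J) _ hJ.isLocalRing _)
    (hc : ∀ c : ι, f c = Ideal.Quotient.mk J (MvPowerSeries.X c + MvPowerSeries.C (f₀ c))) :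
    f = hJ.pt := by
  haveI := hJ.isLocalRing
  obtain ⟨hQt, hQart, hQfin⟩ := hJ.facts
  refine eq_of_eqOn H ι hι hQt f hJ.pt hf hJ.pt_mem fun c hc' => ?_
  rw [hc ⟨c, hc'⟩, hJ.pt_coord ⟨c, hc'⟩]

include H in
/-- The map from the power series ring attached to the point over a good quotient is the
quotient map. -/
theorem Good.uHom_pt {J : Ideal (MvPowerSeries ι 𝒪)} (hJ : Good F f₀ ι J) :
    haveI := hJ.isLocalRing
    haveI : IsArtinianRing (MvPowerSeries ι 𝒪 ⧸ J) := hJ.facts.2.1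
    haveI := isAdicComplete_of_isArtinianRing (MvPowerSeries ι 𝒪 ⧸ J)
    uHom f₀ ι hJ.pt (H.hres _ hJ.pt hJ.pt_mem) = Ideal.Quotient.mkₐ 𝒪 J := by
  haveI := hJ.isLocalRing
  haveI : IsArtinianRing (MvPowerSeries ι 𝒪 ⧸ J) := hJ.facts.2.1
  haveI := isAdicComplete_of_isArtinianRing (MvPowerSeries ι 𝒪 ⧸ J)
  symm
  refine algHom_eq_uHom ι hJ.pt _ _ fun c => ?_
  rw [hJ.pt_coord, Ideal.Quotient.mkₐ_eq_mk, map_add, add_sub_assoc]
  have : (Ideal.Quotient.mk J) (MvPowerSeries.C (f₀ c)) =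
      algebraMap 𝒪 (MvPowerSeries ι 𝒪 ⧸ J) (f₀ c) := by
    rw [← (Ideal.Quotient.mkₐ 𝒪 J).commutes, Ideal.Quotient.mkₐ_eq_mk,
      MvPowerSeries.algebraMap_apply, Algebra.algebraMap_self, RingHom.id_apply]
  rw [this, sub_self, add_zero]

include H in
/-- (4c) Good ideals are upward closed among proper ideals. -/
theorem Good.of_le {J J' : Ideal (MvPowerSeries ι 𝒪)} (hJ : Good F f₀ ι J) (hle : J ≤ J')
    (hJ' : J' ≠ ⊤) : Good F f₀ ι J' := by
  obtain ⟨N, hN⟩ := hJ.exists_pow_le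
  refine ⟨hJ', ⟨N, hN.trans hle⟩, ?_⟩
  haveI := hJ.isLocalRing
  haveI := isLocalRing_quotient hJ'
  obtain ⟨hQt, hQart, hQfin⟩ := hJ.facts
  obtain ⟨hQt', hQart', hQfin'⟩ := quotient_facts ι hJ' (hN.trans hle)
  refine ⟨Ideal.Quotient.factorₐ 𝒪 hle ∘ hJ.pt, ?_, fun c => ?_⟩
  · exact H.hmap _ _ hQt.artinian hQt'.artinian (Ideal.Quotient.factorₐ 𝒪 hle) _ hJ.pt_mem
  · rw [Function.comp_apply, hJ.pt_coord, Ideal.Quotient.factorₐ_apply_mk]

include H hι in
theorem Good.factor_pt {J J' : Ideal (MvPowerSeries ι 𝒪)} (hJ : Good F f₀ ι J)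
    (hJ' : Good F f₀ ι J') (hle : J ≤ J') :
    Ideal.Quotient.factorₐ 𝒪 hle ∘ hJ.pt = hJ'.pt := by
  haveI := hJ.isLocalRing
  haveI := hJ'.isLocalRing
  obtain ⟨hQt, hQart, hQfin⟩ := hJ.facts
  obtain ⟨hQt', hQart', hQfin'⟩ := hJ'.facts
  refine hJ'.pt_unique H ι hι _ ?_ fun c => ?_
  · exact H.hmap _ _ hQt.artinian hQt'.artinian (Ideal.Quotient.factorₐ 𝒪 hle) _ hJ.pt_mem
  · rw [Function.comp_apply, hJ.pt_coord, Ideal.Quotient.factorₐ_apply_mk]

include H hι in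
/-- (4b) Good ideals are closed under intersection. -/
theorem Good.inf {J J' : Ideal (MvPowerSeries ι 𝒪)} (hJ : Good F f₀ ι J)
    (hJ' : Good F f₀ ι J') : Good F f₀ ι (J ⊓ J') := by
  haveI := hJ.isLocalRing
  haveI := hJ'.isLocalRing
  obtain ⟨hQt, hQart, hQfin⟩ := hJ.facts
  obtain ⟨hQt', hQart', hQfin'⟩ := hJ'.facts
  haveI := isAdicComplete_of_isArtinianRing (MvPowerSeries ι 𝒪 ⧸ J)
  haveI := isAdicComplete_of_isArtinianRing (MvPowerSeries ι 𝒪 ⧸ J')
  have hf := H.hres _ hJ.pt hJ.pt_mem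
  have hf' := H.hres _ hJ'.pt hJ'.pt_mem
  have hmem : ∀ x, resk hQt (hJ.pt x) = resk hQt' (hJ'.pt x) := fun x => by
    rw [(resk_eq_iff hQt _ _).mpr (hf x), (resk_eq_iff hQt' _ _).mpr (hf' x)]
  set P := fibreProd hQt hQt' with hP
  haveI : Finite P := fibreProd.finite hQt hQt'
  haveI := isAdicComplete_of_isArtinianRing P
  have hPt : IsTestAlgebra 𝒪 P := fibreProd.isTestAlgebra hQt hQt'
  set h : X → P := fun x => ⟨(hJ.pt x, hJ'.pt x), hmem x⟩ with hh
  have hhF : h ∈ F P :=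
    H.hfib _ _ (ResidueField 𝒪) P hQt.artinian hQt'.artinian
      (isArtinianTestAlgebra_residueField 𝒪)
      (fibreProd.isArtinianTestAlgebra hQt hQt') (resk hQt) (resk hQt') (fibreProd.fst hQt hQt')
      (fibreProd.snd hQt hQt') (fibreProd.comp_eq hQt hQt') (fibreProd.injective hQt hQt')
      (fibreProd.exists_of_resk_eq hQt hQt') h hJ.pt_mem hJ'.pt_mem
  have h1 := comp_uHom ι h (H.hres P h hhF) (fibreProd.fst hQt hQt') hf
  have h2 := comp_uHom ι h (H.hres P h hhF) (fibreProd.snd hQt hQt') hf'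
  have hker : RingHom.ker (uHom f₀ ι h (H.hres P h hhF)) = J ⊓ J' := by
    ext s
    rw [RingHom.mem_ker, Ideal.mem_inf]
    have e1 : fibreProd.fst hQt hQt' (uHom f₀ ι h (H.hres P h hhF) s) = Ideal.Quotient.mk J s := by
      have := congrArg (fun ψ => ψ s) (h1.trans (hJ.uHom_pt H ι))
      simpa only [AlgHom.comp_apply, Ideal.Quotient.mkₐ_eq_mk] using this
    have e2 : fibreProd.snd hQt hQt' (uHom f₀ ι h (H.hres P h hhF) s) = Ideal.Quotient.mk J' s := by
      have := congrArg (fun ψ => ψ s) (h2.trans (hJ'.uHom_pt H ι))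
      simpa only [AlgHom.comp_apply, Ideal.Quotient.mkₐ_eq_mk] using this
    constructor
    · intro h0
      rw [h0, map_zero] at e1 e2
      exact ⟨Ideal.Quotient.eq_zero_iff_mem.mp e1.symm, Ideal.Quotient.eq_zero_iff_mem.mp e2.symm⟩
    · rintro ⟨hs1, hs2⟩
      apply fibreProd.injective hQt hQt'
      show (fibreProd.fst hQt hQt' _, fibreProd.snd hQt hQt' _) =
        (fibreProd.fst hQt hQt' 0, fibreProd.snd hQt hQt' 0)
      rw [e1, e2, map_zero, map_zero, Ideal.Quotient.eq_zero_iff_mem.mpr hs1,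
        Ideal.Quotient.eq_zero_iff_mem.mpr hs2]
  rw [← hker]
  exact good_ker H ι hι hPt h hhF

include H hι in
/-- (4d) There is a good ideal. -/
theorem exists_good : ∃ J : Ideal (MvPowerSeries ι 𝒪), Good F f₀ ι J := by
  haveI := isAdicComplete_of_isArtinianRing (ResidueField 𝒪)
  exact ⟨_, good_ker H ι hι (isTestAlgebra_residueField 𝒪) _ H.hk⟩

/-- The intersection of all good ideals. -/
noncomputable def Jinf (F : ∀ (A : Type) [CommRing A] [IsLocalRing A] [Algebra 𝒪 A], Set (X → A))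
    (f₀ : X → 𝒪) (ι : Finset X) : Ideal (MvPowerSeries ι 𝒪) :=
  sInf {J | Good F f₀ ι J}

theorem Jinf_le {J : Ideal (MvPowerSeries ι 𝒪)} (hJ : Good F f₀ ι J) : Jinf F f₀ ι ≤ J :=
  sInf_le hJ

include H hι in
/-- (K1) Modulo `𝔫ⁿ` the family of good ideals has a least element. -/
theorem exists_good_least (n : ℕ) : ∃ J₀ : Ideal (MvPowerSeries ι 𝒪), Good F f₀ ι J₀ ∧
    ∀ J, Good F f₀ ι J →
      J₀ ⊔ maximalIdeal (MvPowerSeries ι 𝒪) ^ n ≤ J ⊔ maximalIdeal (MvPowerSeries ι 𝒪) ^ n := by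
  set 𝔫 := maximalIdeal (MvPowerSeries ι 𝒪) with h𝔫
  haveI : Finite (MvPowerSeries ι 𝒪 ⧸ 𝔫 ^ n) := finite_quotient_maximalIdeal_pow n
  obtain ⟨J₁, hJ₁⟩ := exists_good H ι hι
  let 𝒜 : Set (Submodule (MvPowerSeries ι 𝒪) (MvPowerSeries ι 𝒪 ⧸ 𝔫 ^ n)) :=
    {M | ∃ J, Good F f₀ ι J ∧ M = Submodule.map (Submodule.mkQ (𝔫 ^ n)) J}
  obtain ⟨M₀, ⟨J₀, hJ₀, rfl⟩, hmin⟩ := IsArtinian.set_has_minimal 𝒜 ⟨_, J₁, hJ₁, rfl⟩
  refine ⟨J₀, hJ₀, fun J hJ => ?_⟩
  have hle : Submodule.map (Submodule.mkQ (𝔫 ^ n)) (J₀ ⊓ J) ≤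
      Submodule.map (Submodule.mkQ (𝔫 ^ n)) J₀ := Submodule.map_mono inf_le_left
  have heq : Submodule.map (Submodule.mkQ (𝔫 ^ n)) (J₀ ⊓ J) =
      Submodule.map (Submodule.mkQ (𝔫 ^ n)) J₀ := by
    by_contra hne
    exact hmin _ ⟨J₀ ⊓ J, hJ₀.inf H ι hι hJ, rfl⟩ (lt_of_le_of_ne hle hne)
  have h2 := congrArg (Submodule.comap (Submodule.mkQ (𝔫 ^ n))) heq
  rw [Submodule.comap_map_mkQ, Submodule.comap_map_mkQ] at h2
  calc J₀ ⊔ 𝔫 ^ n = 𝔫 ^ n ⊔ J₀ := sup_comm _ _
    _ = 𝔫 ^ n ⊔ (J₀ ⊓ J) := h2.symm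
    _ ≤ J ⊔ 𝔫 ^ n := sup_le le_sup_right (inf_le_right.trans le_sup_left)

end GoodLemmas

section LemmaK

variable [IsNoetherianRing 𝒪] [Finite (ResidueField 𝒪)] [IsAdicComplete (maximalIdeal 𝒪) 𝒪]
  (H : Hyp 𝒪 X F f₀) (ι : Finset X)
  (hι : ∀ g ∈ @F (DualNumber (ResidueField 𝒪)) _ _ (dualNumberAlgebra 𝒪),
      (∀ x ∈ ι, g x = constPt f₀ x) → g = constPt f₀)

include H hι in
/-- (K3) Chevalley-type lemma: modulo `𝔫ⁿ`, the least good ideal agrees with the intersection of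
all good ideals. -/
theorem exists_good_le_Jinf_sup (n : ℕ) : ∃ J₀ : Ideal (MvPowerSeries ι 𝒪), Good F f₀ ι J₀ ∧
    J₀ ≤ Jinf F f₀ ι ⊔ maximalIdeal (MvPowerSeries ι 𝒪) ^ n := by
  set 𝔫 := maximalIdeal (MvPowerSeries ι 𝒪) with h𝔫
  choose Jn hJn hleast using exists_good_least H ι hι
  -- `K m = Jn m ⊔ 𝔫 ^ m`
  set K : ℕ → Ideal (MvPowerSeries ι 𝒪) := fun m => Jn m ⊔ 𝔫 ^ m with hK
  have hKa : ∀ m J, Good F f₀ ι J → K m ≤ J ⊔ 𝔫 ^ m := fun m J hJ => hleast m J hJ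
  have hKb : ∀ m, K m ≤ K (m + 1) ⊔ 𝔫 ^ m := fun m =>
    (hKa m _ (hJn (m + 1))).trans (sup_le_sup_right le_sup_left _)
  refine ⟨Jn n, hJn n, fun x hx => ?_⟩
  have hx' : x ∈ K n := Submodule.mem_sup_left hx
  -- build the sequence
  have step : ∀ (j : ℕ) (y : MvPowerSeries ι 𝒪), ∃ y' : MvPowerSeries ι 𝒪,
      y ∈ K (n + j) → (y' ∈ K (n + j + 1) ∧ y - y' ∈ 𝔫 ^ (n + j)) := by
    intro j y
    by_cases hy : y ∈ K (n + j)
    · obtain ⟨y', hy', z, hz, rfl⟩ := Submodule.mem_sup.mp (hKb (n + j) hy)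
      exact ⟨y', fun _ => ⟨hy', by simpa using hz⟩⟩
    · exact ⟨0, fun h => absurd h hy⟩
  choose next hnext using step
  let y : ℕ → MvPowerSeries ι 𝒪 := fun j => Nat.rec x (fun j yj => next j yj) j
  have hy0 : y 0 = x := rfl
  have hyS : ∀ j, y (j + 1) = next j (y j) := fun j => rfl
  have hymem : ∀ j, y j ∈ K (n + j) := by
    intro j
    induction j with
    | zero => exact hx'
    | succ j ih => rw [hyS]; exact (hnext j (y j) ih).1
  have hysucc : ∀ j, y j - y (j + 1) ∈ 𝔫 ^ (n + j) := fun j => by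
    rw [hyS]; exact (hnext j (y j) (hymem j)).2
  -- telescoping
  have htel : ∀ m d, y m - y (m + d) ∈ 𝔫 ^ (n + m) := by
    intro m d
    induction d with
    | zero => rw [add_zero, sub_self]; exact zero_mem _
    | succ d ih =>
      have h1 := hysucc (m + d)
      have h2 : 𝔫 ^ (n + (m + d)) ≤ 𝔫 ^ (n + m) := Ideal.pow_le_pow_right (by omega)
      have := add_mem ih (h2 h1)
      rwa [sub_add_sub_cancel] at this
  obtain ⟨L, hL⟩ := IsPrecomplete.prec' (I := 𝔫) y (by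
    intro m m' hmm'
    obtain ⟨d, rfl⟩ := Nat.exists_eq_add_of_le hmm'
    rw [SModEq.sub_mem, smul_eq_mul, Ideal.mul_top]
    exact Ideal.pow_le_pow_right (by omega) (htel m d))
  have hL' : ∀ m, y m - L ∈ 𝔫 ^ m := fun m => by
    have := hL m
    rwa [SModEq.sub_mem, smul_eq_mul, Ideal.mul_top] at this
  -- `L` lies in every good ideal
  have hLJ : L ∈ Jinf F f₀ ι := by
    rw [Jinf, Submodule.mem_sInf]
    intro J hJ
    obtain ⟨N, hN⟩ := hJ.exists_pow_le
    have h1 : y N ∈ J := by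
      have := hKa (n + N) J hJ (hymem N)
      have h2 : J ⊔ 𝔫 ^ (n + N) ≤ J :=
        sup_le le_rfl ((Ideal.pow_le_pow_right (by omega)).trans hN)
      exact h2 this
    have h2 : y N - L ∈ J := hN (hL' N)
    have := sub_mem h1 h2
    rwa [sub_sub_cancel] at this
  have hxL : x - L ∈ 𝔫 ^ n := by
    have h1 : x - y n ∈ 𝔫 ^ n := by
      have := htel 0 n
      rwa [zero_add, add_zero, hy0] at this
    have := add_mem h1 (hL' n)
    rwa [sub_add_sub_cancel] at this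
  have : x = L + (x - L) := by ring
  rw [this]
  exact add_mem (Submodule.mem_sup_left hLJ) (Submodule.mem_sup_right hxL)

include H hι in
/-- (K4) `J∞ + 𝔫ⁿ` is good for `n ≥ 1`. -/
theorem good_Jinf_sup (n : ℕ) :
    Good F f₀ ι (Jinf F f₀ ι ⊔ maximalIdeal (MvPowerSeries ι 𝒪) ^ (n + 1)) := by
  obtain ⟨J₀, hJ₀, hle⟩ := exists_good_le_Jinf_sup H ι hι (n + 1)
  refine hJ₀.of_le H ι hle ?_
  intro htop
  have h1 : Jinf F f₀ ι ≤ maximalIdeal (MvPowerSeries ι 𝒪) :=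
    (Jinf_le ι hJ₀).trans (le_maximalIdeal hJ₀.ne_top)
  have h2 : maximalIdeal (MvPowerSeries ι 𝒪) ^ (n + 1) ≤ maximalIdeal (MvPowerSeries ι 𝒪) :=
    Ideal.pow_le_self (by omega)
  have := sup_le h1 h2
  rw [htop] at this
  exact (maximalIdeal.isMaximal _).ne_top (top_le_iff.mp this)

end LemmaK

section Ring

variable [IsNoetherianRing 𝒪] [Finite (ResidueField 𝒪)] [IsAdicComplete (maximalIdeal 𝒪) 𝒪]
  (H : Hyp 𝒪 X F f₀) (ι : Finset X)
  (hι : ∀ g ∈ @F (DualNumber (ResidueField 𝒪)) _ _ (dualNumberAlgebra 𝒪),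
      (∀ x ∈ ι, g x = constPt f₀ x) → g = constPt f₀)

include H hι in
theorem Jinf_ne_top : Jinf F f₀ ι ≠ ⊤ := by
  obtain ⟨J, hJ⟩ := exists_good H ι hι
  intro h
  exact hJ.ne_top (top_le_iff.mp (h ▸ Jinf_le ι hJ))

include H hι in
/-- A lift of a compatible system of values of the points over `S ⧸ (J∞ + 𝔫ⁿ⁺¹)`. -/
theorem exists_lift_aux (x : X) : ∃ t : MvPowerSeries ι 𝒪,
    ∀ n, Ideal.Quotient.mk _ t = (good_Jinf_sup H ι hι n).pt x := by
  set 𝔫 := maximalIdeal (MvPowerSeries ι 𝒪) with h𝔫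
  set J := Jinf F f₀ ι with hJdef
  haveI : IsLocalRing (MvPowerSeries ι 𝒪 ⧸ J) := isLocalRing_quotient (Jinf_ne_top H ι hι)
  haveI : IsAdicComplete (maximalIdeal (MvPowerSeries ι 𝒪 ⧸ J)) (MvPowerSeries ι 𝒪 ⧸ J) :=
    Key.isAdicComplete_quotient J
  set g := good_Jinf_sup H ι hι with hg
  choose s hs using fun n => Ideal.Quotient.mk_surjective ((g n).pt x)
  have hcompat : ∀ n m, n ≤ m → s m - s n ∈ J ⊔ 𝔫 ^ (n + 1) := by
    intro n m hnm
    have hle : J ⊔ 𝔫 ^ (m + 1) ≤ J ⊔ 𝔫 ^ (n + 1) :=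
      sup_le_sup_left (Ideal.pow_le_pow_right (by omega)) _
    have h1 := congrFun ((g m).factor_pt H ι hι (g n) hle) x
    rw [Function.comp_apply, ← hs m, ← hs n, Ideal.Quotient.factorₐ_apply_mk] at h1
    exact Ideal.Quotient.eq.mp h1
  have hmem : ∀ (n : ℕ) (a : MvPowerSeries ι 𝒪), a ∈ J ⊔ 𝔫 ^ (n + 1) →
      Ideal.Quotient.mk J a ∈ maximalIdeal (MvPowerSeries ι 𝒪 ⧸ J) ^ (n + 1) := by
    intro n a ha
    have := Key.comap_maximalIdeal_quotient_pow J (n + 1)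
    rw [sup_comm] at this
    rw [← this] at ha
    exact ha
  obtain ⟨r, hr⟩ := IsPrecomplete.prec' (I := maximalIdeal (MvPowerSeries ι 𝒪 ⧸ J))
    (fun n => Ideal.Quotient.mk J (s n)) (by
      intro n m hnm
      rw [SModEq.sub_mem, smul_eq_mul, Ideal.mul_top, ← map_sub, ← neg_sub, map_neg]
      exact neg_mem (Ideal.pow_le_pow_right (by omega) (hmem n _ (hcompat n m hnm))))
  obtain ⟨t, rfl⟩ := Ideal.Quotient.mk_surjective r
  refine ⟨t, fun n => ?_⟩
  rw [← hs n, Ideal.Quotient.eq]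
  have h1 := hr (n + 1)
  rw [SModEq.sub_mem, smul_eq_mul, Ideal.mul_top, ← map_sub] at h1
  have h2 := hmem n _ (hcompat n (n + 1) (by omega))
  have h3 := sub_mem h2 h1
  rw [← map_sub] at h3
  have h4 : s (n + 1) - s n - (s (n + 1) - t) = t - s n := by ring
  rw [h4] at h3
  have := Key.comap_maximalIdeal_quotient_pow J (n + 1)
  rw [sup_comm] at this
  rw [← this]
  exact h3

include H hι in
/-- From the levels `J∞ + 𝔫ⁿ⁺¹` to all good ideals. -/
theorem mk_eq_pt_of_forall (x : X) (t : MvPowerSeries ι 𝒪)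
    (ht : ∀ n, Ideal.Quotient.mk _ t = (good_Jinf_sup H ι hι n).pt x)
    {J : Ideal (MvPowerSeries ι 𝒪)} (hJ : Good F f₀ ι J) : Ideal.Quotient.mk J t = hJ.pt x := by
  obtain ⟨N, hN⟩ := hJ.exists_pow_le
  have hle : Jinf F f₀ ι ⊔ maximalIdeal (MvPowerSeries ι 𝒪) ^ (N + 1) ≤ J :=
    sup_le (Jinf_le ι hJ) ((Ideal.pow_le_pow_right (by omega)).trans hN)
  have h1 := congrFun ((good_Jinf_sup H ι hι N).factor_pt H ι hι hJ hle) x
  rw [Function.comp_apply, ← ht N, Ideal.Quotient.factorₐ_apply_mk] at h1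
  exact h1

include H hι in
/-- The universal point, as a function to the power series ring (a lift). -/
theorem exists_lift : ∃ t : X → MvPowerSeries ι 𝒪,
    (∀ c : ι, t c = MvPowerSeries.X c + MvPowerSeries.C (f₀ c)) ∧
    ∀ (J : Ideal (MvPowerSeries ι 𝒪)) (hJ : Good F f₀ ι J) (x : X),
      Ideal.Quotient.mk J (t x) = hJ.pt x := by
  classical
  have hex : ∀ x : X, ∃ t : MvPowerSeries ι 𝒪,
      (∀ h : x ∈ ι, t = MvPowerSeries.X ⟨x, h⟩ + MvPowerSeries.C (f₀ x)) ∧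
      ∀ n, Ideal.Quotient.mk _ t = (good_Jinf_sup H ι hι n).pt x := by
    intro x
    by_cases hx : x ∈ ι
    · refine ⟨MvPowerSeries.X ⟨x, hx⟩ + MvPowerSeries.C (f₀ x), fun _ => rfl, fun n => ?_⟩
      exact ((good_Jinf_sup H ι hι n).pt_coord ⟨x, hx⟩).symm
    · obtain ⟨t, ht⟩ := exists_lift_aux H ι hι x
      exact ⟨t, fun h => absurd h hx, ht⟩
  choose t ht1 ht2 using hex
  exact ⟨t, fun c => ht1 c c.2, fun J hJ x => mk_eq_pt_of_forall H ι hι x (t x) (ht2 x) hJ⟩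

include H hι in
/-- The main theorem, for a fixed separating set `ι`. -/
theorem exists_universal_aux :
    ∃ (R : Type) (_ : CommRing R) (_ : IsLocalRing R) (_ : IsNoetherianRing R)
      (_ : IsAdicComplete (maximalIdeal R) R) (_ : Algebra 𝒪 R)
      (_ : IsLocalHom (algebraMap 𝒪 R)),
      Surjective (residue R ∘ algebraMap 𝒪 R) ∧
      ∃ fR ∈ F R, ∀ (A : Type) [CommRing A] [IsLocalRing A] [IsNoetherianRing A]
        [IsAdicComplete (maximalIdeal A) A] [Algebra 𝒪 A] [IsLocalHom (algebraMap 𝒪 A)],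
        Surjective (residue A ∘ algebraMap 𝒪 A) → ∀ f ∈ F A,
          ∃! φ : R →ₐ[𝒪] A, (φ ∘ fR) = f := by
  set J := Jinf F f₀ ι with hJdef
  haveI hloc : IsLocalRing (MvPowerSeries ι 𝒪 ⧸ J) := isLocalRing_quotient (Jinf_ne_top H ι hι)
  haveI hcomp : IsAdicComplete (maximalIdeal (MvPowerSeries ι 𝒪 ⧸ J)) (MvPowerSeries ι 𝒪 ⧸ J) :=
    Key.isAdicComplete_quotient J
  have hRt : IsTestAlgebra 𝒪 (MvPowerSeries ι 𝒪 ⧸ J) := (isTestAlgebra_mvPowerSeries _).quotient J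
  obtain ⟨t, htc, htJ⟩ := exists_lift H ι hι
  set fR : X → MvPowerSeries ι 𝒪 ⧸ J := fun x => Ideal.Quotient.mk J (t x) with hfR
  -- the universal point lies in `F R`
  have hfRF : fR ∈ F (MvPowerSeries ι 𝒪 ⧸ J) := by
    rw [H.hcont _ hRt.isLocalHom hRt.residue_surjective]
    intro B _ _ _ hB q hq
    have hBt : IsTestAlgebra 𝒪 B := IsTestAlgebra.of_artinian hB
    haveI : IsArtinianRing B := hB.isArtinian
    set q' : MvPowerSeries ι 𝒪 →ₐ[𝒪] B := q.comp (Ideal.Quotient.mkₐ 𝒪 J) with hq'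
    have hq's : Surjective q' := hq.comp (Ideal.Quotient.mkₐ_surjective 𝒪 J)
    haveI : IsLocalHom (q' : MvPowerSeries ι 𝒪 →+* B) := isLocalHom_of_isTestAlgebra hBt q'
    obtain ⟨N, hN⟩ := Key.exists_pow_le_ker (q' : MvPowerSeries ι 𝒪 →+* B)
    have hJle : J ≤ RingHom.ker q' := by
      intro a ha
      rw [RingHom.mem_ker, hq', AlgHom.comp_apply, Ideal.Quotient.mkₐ_eq_mk,
        Ideal.Quotient.eq_zero_iff_mem.mpr ha, map_zero]
    have hgood : Good F f₀ ι (RingHom.ker q') := by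
      refine (good_Jinf_sup H ι hι N).of_le H ι
        (sup_le hJle ((Ideal.pow_le_pow_right (by omega)).trans hN)) (RingHom.ker_ne_top _)
    haveI := hgood.isLocalRing
    obtain ⟨hQt, hQart, hQfin⟩ := hgood.facts
    have : q ∘ fR = Ideal.kerLiftAlg q' ∘ hgood.pt := by
      funext x
      rw [Function.comp_apply, Function.comp_apply, ← htJ _ hgood x, Ideal.kerLiftAlg_mk]
      rfl
    rw [this]
    exact H.hmap _ B hQt.artinian hB (Ideal.kerLiftAlg q') _ hgood.pt_mem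
  refine ⟨MvPowerSeries ι 𝒪 ⧸ J, inferInstance, hloc, inferInstance, hcomp, inferInstance,
    hRt.isLocalHom, hRt.residue_surjective, fR, hfRF, ?_⟩
  intro A _ _ _ _ _ hAloc hAres f hfF
  have hAt : IsTestAlgebra 𝒪 A := ⟨hAloc, hAres⟩
  have hf := H.hres A f hfF
  set u := uHom f₀ ι f hf with hu
  -- the finite levels of `A`
  have hlevel : ∀ n : ℕ, ∀ s : MvPowerSeries ι 𝒪,
      (s ∈ J → u s ∈ maximalIdeal A ^ (n + 1)) ∧
      ∀ x, s = t x → u s - f x ∈ maximalIdeal A ^ (n + 1) := by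
    intro n s
    set I := maximalIdeal A ^ (n + 1) with hI
    haveI : IsLocalRing (A ⧸ I) := isLocalRing_quotient (maximalIdeal_pow_ne_top A n)
    have hQt : IsTestAlgebra 𝒪 (A ⧸ I) := hAt.quotient I
    haveI : IsArtinianRing (A ⧸ I) := isArtinianRing_quotient_of_pow_le (le_refl _)
    haveI : Finite (A ⧸ I) := hQt.finite_of_isArtinianRing
    haveI : IsAdicComplete (maximalIdeal (A ⧸ I)) (A ⧸ I) := isAdicComplete_of_isArtinianRing _
    set q := Ideal.Quotient.mkₐ 𝒪 I with hq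
    have hfn : (q ∘ f) ∈ F (A ⧸ I) :=
      (H.hcont A hAloc hAres f).mp hfF (A ⧸ I) hQt.artinian q (Ideal.Quotient.mkₐ_surjective 𝒪 I)
    have hcompu := comp_uHom ι f hf q (H.hres _ _ hfn)
    have hgood := good_ker H ι hι hQt (q ∘ f) hfn
    constructor
    · intro hs
      have h1 : s ∈ RingHom.ker (uHom f₀ ι (q ∘ f) (H.hres _ _ hfn)) := Jinf_le ι hgood hs
      rw [RingHom.mem_ker, ← hcompu, AlgHom.comp_apply, hq, Ideal.Quotient.mkₐ_eq_mk,
        Ideal.Quotient.eq_zero_iff_mem] at h1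
      exact h1
    · intro x hsx
      haveI := hgood.isLocalRing
      obtain ⟨hQt', hQart', hQfin'⟩ := hgood.facts
      set ψ := Ideal.kerLiftAlg (uHom f₀ ι (q ∘ f) (H.hres _ _ hfn)) with hψ
      have hψpt : ψ ∘ hgood.pt = q ∘ f := by
        refine eq_of_eqOn H ι hι hQt _ _
          (H.hmap _ _ hQt'.artinian hQt.artinian ψ _ hgood.pt_mem) hfn fun c hc => ?_
        rw [Function.comp_apply, hgood.pt_coord ⟨c, hc⟩, hψ, Ideal.kerLiftAlg_mk, uHom_X_add_C]
      have h1 : q (u s) = q (f x) := by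
        have h2 : q (u s) = uHom f₀ ι (q ∘ f) (H.hres _ _ hfn) s := by
          rw [← hcompu, AlgHom.comp_apply]
        rw [h2, ← Ideal.kerLiftAlg_mk, ← hψ, hsx, htJ _ hgood x]
        exact congrFun hψpt x
      exact Ideal.Quotient.eq.mp h1
  have hker : ∀ s ∈ J, u s = 0 := fun s hs =>
    eq_of_forall_sub_mem_pow (maximalIdeal A) fun n => by
      rw [sub_zero]
      rcases n with _ | n
      · rw [pow_zero, Ideal.one_eq_top]; trivial
      · exact (hlevel n s).1 hs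
  have hut : ∀ x, u (t x) = f x := fun x =>
    eq_of_forall_sub_mem_pow (maximalIdeal A) fun n => by
      rcases n with _ | n
      · rw [pow_zero, Ideal.one_eq_top]; trivial
      · exact (hlevel n (t x)).2 x rfl
  have hlift : ∀ s, Ideal.Quotient.liftₐ J u hker (Ideal.Quotient.mk J s) = u s := fun s => rfl
  refine ⟨Ideal.Quotient.liftₐ J u hker, ?_, fun φ' hφ' => ?_⟩
  · funext x
    rw [Function.comp_apply, hfR]
    show Ideal.Quotient.liftₐ J u hker (Ideal.Quotient.mk J (t x)) = f x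
    rw [hlift]
    exact hut x
  · have h1 : φ'.comp (Ideal.Quotient.mkₐ 𝒪 J) = u := by
      refine algHom_eq_uHom ι f hf _ fun c => ?_
      have h2 : φ' (fR c) = f c := congrFun hφ' c
      rw [hfR] at h2
      simp only [htc c, map_add] at h2
      rw [AlgHom.comp_apply, Ideal.Quotient.mkₐ_eq_mk, ← h2]
      have h3 : (Ideal.Quotient.mk J) (MvPowerSeries.C (f₀ c)) =
          algebraMap 𝒪 (MvPowerSeries ι 𝒪 ⧸ J) (f₀ c) := by
        rw [← (Ideal.Quotient.mkₐ 𝒪 J).commutes, Ideal.Quotient.mkₐ_eq_mk,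
          MvPowerSeries.algebraMap_apply, Algebra.algebraMap_self, RingHom.id_apply]
      rw [h3, AlgHom.commutes, add_sub_cancel_right]
    refine AlgHom.ext fun r => ?_
    obtain ⟨s, rfl⟩ := Ideal.Quotient.mk_surjective r
    have := congrArg (fun ψ => ψ s) h1
    simp only [AlgHom.comp_apply, Ideal.Quotient.mkₐ_eq_mk] at this
    rw [this, hlift]

end Ring

end Universal

/-- **Abstract pro-representability.**  A subfunctor `F` of `A ↦ (X → A)` on local `𝒪`-algebras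
(`𝒪` a complete discrete valuation ring with finite residue field) which reduces to a fixed point
modulo the maximal ideal, is functorial on artinian test algebras, is compatible with fibre
products and injections of artinian test algebras, is continuous, and has finitely many points
over the dual numbers, is pro-represented by a complete noetherian local `𝒪`-algebra with residue
field that of `𝒪`. -/
theorem exists_universal
    (𝒪 : Type) [CommRing 𝒪] [IsDomain 𝒪] [IsDiscreteValuationRing 𝒪]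
    [IsAdicComplete (maximalIdeal 𝒪) 𝒪] [Finite (ResidueField 𝒪)]
    (X : Type)
    (F : ∀ (A : Type) [CommRing A] [IsLocalRing A] [Algebra 𝒪 A], Set (X → A))
    (f₀ : X → 𝒪)
    (hres : ∀ (A : Type) [CommRing A] [IsLocalRing A] [Algebra 𝒪 A] (f : X → A), f ∈ F A →
      ∀ x, f x - algebraMap 𝒪 A (f₀ x) ∈ maximalIdeal A)
    (hk : (fun x => algebraMap 𝒪 (ResidueField 𝒪) (f₀ x)) ∈ F (ResidueField 𝒪))
    (hmap : ∀ (A B : Type) [CommRing A] [IsLocalRing A] [Algebra 𝒪 A]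
      [CommRing B] [IsLocalRing B] [Algebra 𝒪 B],
      IsArtinianTestAlgebra 𝒪 A → IsArtinianTestAlgebra 𝒪 B →
      ∀ (φ : A →ₐ[𝒪] B) (f : X → A), f ∈ F A → (φ ∘ f) ∈ F B)
    (hinj : ∀ (A B : Type) [CommRing A] [IsLocalRing A] [Algebra 𝒪 A]
      [CommRing B] [IsLocalRing B] [Algebra 𝒪 B],
      IsArtinianTestAlgebra 𝒪 A → IsArtinianTestAlgebra 𝒪 B →
      ∀ (φ : A →ₐ[𝒪] B), Injective φ → ∀ (f : X → A), (φ ∘ f) ∈ F B → f ∈ F A)
    (hfib : ∀ (A B C P : Type) [CommRing A] [IsLocalRing A] [Algebra 𝒪 A]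
      [CommRing B] [IsLocalRing B] [Algebra 𝒪 B] [CommRing C] [IsLocalRing C] [Algebra 𝒪 C]
      [CommRing P] [IsLocalRing P] [Algebra 𝒪 P],
      IsArtinianTestAlgebra 𝒪 A → IsArtinianTestAlgebra 𝒪 B → IsArtinianTestAlgebra 𝒪 C →
      IsArtinianTestAlgebra 𝒪 P →
      ∀ (f : A →ₐ[𝒪] C) (g : B →ₐ[𝒪] C) (pA : P →ₐ[𝒪] A) (pB : P →ₐ[𝒪] B),
      f.comp pA = g.comp pB →
      Injective (fun x => (pA x, pB x)) →
      (∀ a b, f a = g b → ∃ x, pA x = a ∧ pB x = b) →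
      ∀ (h : X → P), (pA ∘ h) ∈ F A → (pB ∘ h) ∈ F B → h ∈ F P)
    (hcont : ∀ (A : Type) [CommRing A] [IsLocalRing A] [IsNoetherianRing A]
      [IsAdicComplete (maximalIdeal A) A] [Algebra 𝒪 A],
      IsLocalHom (algebraMap 𝒪 A) → Surjective (residue A ∘ algebraMap 𝒪 A) →
      ∀ (f : X → A), f ∈ F A ↔
        ∀ (B : Type) [CommRing B] [IsLocalRing B] [Algebra 𝒪 B], IsArtinianTestAlgebra 𝒪 B →
          ∀ (q : A →ₐ[𝒪] B), Surjective q → (q ∘ f) ∈ F B)
    (hfin : (@F (DualNumber (ResidueField 𝒪)) _ _ (dualNumberAlgebra 𝒪)).Finite) :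
    ∃ (R : Type) (_ : CommRing R) (_ : IsLocalRing R) (_ : IsNoetherianRing R)
      (_ : IsAdicComplete (maximalIdeal R) R) (_ : Algebra 𝒪 R)
      (_ : IsLocalHom (algebraMap 𝒪 R)),
      Surjective (residue R ∘ algebraMap 𝒪 R) ∧
      ∃ fR ∈ F R, ∀ (A : Type) [CommRing A] [IsLocalRing A] [IsNoetherianRing A]
        [IsAdicComplete (maximalIdeal A) A] [Algebra 𝒪 A] [IsLocalHom (algebraMap 𝒪 A)],
        Surjective (residue A ∘ algebraMap 𝒪 A) → ∀ f ∈ F A,
          ∃! φ : R →ₐ[𝒪] A, (φ ∘ fR) = f := by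
  have H : Universal.Hyp 𝒪 X F f₀ := ⟨hres, hk, hmap, hinj, hfib, hcont, hfin⟩
  obtain ⟨ι, hι⟩ := Universal.exists_separating H
  exact Universal.exists_universal_aux H ι hι

end Fermat.Agent.Lib.Deform
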